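import Mathlib

/-!
# Ideals of linear type generated by a regular sequence (helper678)

Let `A` be a noetherian commutative ring and `x : Fin n → A` a regular sequence
(`x i` is a nonzerodivisor modulo `(x 0, …, x (i-1))`).  Then the kernel of the substitution
`A⟦X₀,…,X_{n-1}⟧ → A⟦t⟧`, `X i ↦ x i * t`, is the ideal generated by the Koszul relations
`x i * X j - x j * X i`.  In particular, if `A` is a domain, then
`A⟦X⟧ ⧸ (x i * X j - x j * X i)` is a domain (completed Rees algebra of the ideal `(x)`).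

This is the commutative-algebra core of the proof that the local lifting ring `R_χ`
(Taylor's Ihara avoidance, ramified principal series type at `q ≡ 1 mod p`) is a domain.
-/

set_option autoImplicit false

namespace Fermat.Agent.Ribet.H678

open MvPowerSeries

section Decomp

variable {σ : Type*} [Finite σ] {R : Type*} [CommRing R]

/-- A power series in finitely many variables with vanishing constant coefficient lies in the
ideal generated by the variables. -/
theorem mem_span_X_of_constantCoeff_eq_zero (f : MvPowerSeries σ R)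
    (hf : MvPowerSeries.constantCoeff f = 0) :
    f ∈ Ideal.span (Set.range (MvPowerSeries.X : σ → MvPowerSeries σ R)) := by
  classical
  let e := (MvPowerSeries.toAdicCompletionAlgEquiv σ R).toRingEquiv
  have hmap : Ideal.map e (Ideal.span (Set.range MvPowerSeries.X)) =
      (MvPolynomial.idealOfVars σ R).map (algebraMap _ _) := by
    simp_rw [Ideal.map_span, ← Set.range_comp]
    congr 2; ext1
    simp [e, AdicCompletion.algebraMap_apply, ← MvPolynomial.coe_X,
      MvPowerSeries.toAdicCompletion_coe]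
  have hef : e f ∈ Ideal.map e (Ideal.span (Set.range MvPowerSeries.X)) := by
    rw [hmap, ← AdicCompletion.ker_evalOneₐ_eq_map _ (MvPolynomial.idealOfVars_fg σ R)]
    rw [RingHom.mem_ker]
    change AdicCompletion.evalOneₐ _ (MvPowerSeries.toAdicCompletion σ R f) = 0
    have h0 : MvPowerSeries.truncTotal 1 f = 0 := by
      ext x
      rw [MvPowerSeries.coeff_truncTotal_eq_ite]
      split_ifs with h
      · have hx : x = 0 := by
          have : x.degree = 0 := by omega
          exact (Finsupp.degree_eq_zero_iff x).1 this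
        subst hx
        simpa using hf
      · simp
    have key : AdicCompletion.evalOneₐ _ (MvPowerSeries.toAdicCompletion σ R f) =
        Ideal.Quotient.factorₐ (MvPolynomial σ R) (by simp)
          (MvPowerSeries.truncTotalAlgHom σ R 1 f) := rfl
    rw [key, MvPowerSeries.truncTotalAlgHom_apply, h0]
    simp
  obtain ⟨x, hx, hxe⟩ := (Ideal.mem_map_of_equiv e _).1 hef
  rwa [e.injective hxe] at hx

end Decomp

section LinearType

variable {A : Type*} [CommRing A] {n : ℕ} (x : Fin n → A)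

/-- The family `i ↦ x i * t` of power series in one variable. -/
noncomputable def ltFamily : Fin n → PowerSeries A :=
  fun i => PowerSeries.C (x i) * PowerSeries.X

theorem constantCoeff_ltFamily (i : Fin n) : constantCoeff (ltFamily x i) = 0 := by
  change PowerSeries.constantCoeff (PowerSeries.C (x i) * PowerSeries.X) = 0
  simp

theorem hasSubst_ltFamily : HasSubst (ltFamily x) :=
  hasSubst_of_constantCoeff_zero (constantCoeff_ltFamily x)

/-- The substitution `X i ↦ x i * t`. -/
noncomputable def ltPsi : MvPowerSeries (Fin n) A →ₐ[A] PowerSeries A :=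
  substAlgHom (hasSubst_ltFamily x)

theorem ltPsi_X (i : Fin n) : ltPsi x (X i) = PowerSeries.C (x i) * PowerSeries.X := by
  rw [ltPsi, substAlgHom_X]; rfl

theorem ltPsi_C (a : A) : ltPsi x (C a) = PowerSeries.C a := by
  have h := (ltPsi x).commutes a
  rw [← c_eq_algebraMap] at h
  rw [h]; exact PowerSeries.C_eq_algebraMap.symm

theorem constantCoeff_ltPsi (F : MvPowerSeries (Fin n) A) :
    PowerSeries.constantCoeff (ltPsi x F) = constantCoeff F := by
  have h : constantCoeff (F - C (constantCoeff F)) = 0 := by simp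
  have h2 := constantCoeff_subst_eq_zero (hasSubst_ltFamily x) (constantCoeff_ltFamily x) h
  have h3 : subst (ltFamily x) (F - C (constantCoeff F)) =
      ltPsi x F - PowerSeries.C (constantCoeff F) := by
    rw [← ltPsi_C x, ← map_sub, ltPsi, substAlgHom_apply]
  rw [h3] at h2
  have h4 : PowerSeries.constantCoeff (ltPsi x F - PowerSeries.C (constantCoeff F)) = 0 := h2
  rw [map_sub, PowerSeries.constantCoeff_C, sub_eq_zero] at h4
  exact h4

/-- The ideal generated by the Koszul relations `x i * X j - x j * X i`. -/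
noncomputable def koszul : Ideal (MvPowerSeries (Fin n) A) :=
  Ideal.span (Set.range fun p : Fin n × Fin n => C (x p.1) * X p.2 - C (x p.2) * X p.1)

/-- The ideal `(x 0, …, x (j-1))` of `A`. -/
def ltA (j : ℕ) : Ideal A := Ideal.span (x '' {i | (i : ℕ) < j})

/-- The ideal `(X 0, …, X (j-1))` of `A⟦X⟧`. -/
noncomputable def ltX (A : Type*) [CommRing A] (n j : ℕ) : Ideal (MvPowerSeries (Fin n) A) :=
  Ideal.span (X '' {i : Fin n | (i : ℕ) < j})

/-- The ideal `koszul + (x 0, …, x (j-1)) + (X 0, …, X (j-1))`. -/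
noncomputable def ltL (j : ℕ) : Ideal (MvPowerSeries (Fin n) A) :=
  koszul x ⊔ (ltA x j).map C ⊔ ltX A n j

/-- Power series in one variable all of whose coefficients lie in a given ideal. -/
def coeffIdeal (𝔟 : Ideal A) : Ideal (PowerSeries A) where
  carrier := {g | ∀ d, PowerSeries.coeff d g ∈ 𝔟}
  add_mem' := fun {a b} ha hb d => by rw [map_add]; exact 𝔟.add_mem (ha d) (hb d)
  zero_mem' := fun d => by simp
  smul_mem' := fun c g hg d => by
    rw [smul_eq_mul, PowerSeries.coeff_mul]
    exact Ideal.sum_mem _ (fun p _ => 𝔟.mul_mem_left _ (hg _))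

theorem mem_coeffIdeal {𝔟 : Ideal A} {g : PowerSeries A} :
    g ∈ coeffIdeal 𝔟 ↔ ∀ d, PowerSeries.coeff d g ∈ 𝔟 := Iff.rfl

theorem ltA_mono {j k : ℕ} (h : j ≤ k) : ltA x j ≤ ltA x k :=
  Ideal.span_mono (Set.image_mono fun _ hi => lt_of_lt_of_le hi h)

theorem coeffIdeal_mono {𝔟 𝔠 : Ideal A} (h : 𝔟 ≤ 𝔠) : coeffIdeal 𝔟 ≤ coeffIdeal 𝔠 :=
  fun _ hg d => h (hg d)

theorem mem_ltA {j : ℕ} {i : Fin n} (h : (i : ℕ) < j) : x i ∈ ltA x j :=
  Ideal.subset_span ⟨i, h, rfl⟩

theorem koszul_le_ker : koszul x ≤ RingHom.ker (ltPsi x) := by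
  rw [koszul, Ideal.span_le]
  rintro _ ⟨p, rfl⟩
  rw [SetLike.mem_coe, RingHom.mem_ker, map_sub, map_mul, map_mul, ltPsi_X, ltPsi_X, ltPsi_C,
    ltPsi_C]
  ring

theorem ltL_le_comap (j : ℕ) : ltL x j ≤ (coeffIdeal (ltA x j)).comap (ltPsi x) := by
  refine sup_le (sup_le ?_ ?_) ?_
  · intro F hF
    have := koszul_le_ker x hF
    rw [RingHom.mem_ker] at this
    rw [Ideal.mem_comap, this]
    exact Ideal.zero_mem _
  · rw [Ideal.map_le_iff_le_comap]
    intro a ha
    rw [Ideal.mem_comap, Ideal.mem_comap, ltPsi_C, mem_coeffIdeal]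
    intro d
    rw [PowerSeries.coeff_C]
    split_ifs
    · exact ha
    · exact Ideal.zero_mem _
  · rw [ltX, Ideal.span_le]
    rintro _ ⟨i, hi, rfl⟩
    rw [SetLike.mem_coe, Ideal.mem_comap, ltPsi_X, mem_coeffIdeal]
    intro d
    rw [PowerSeries.coeff_C_mul]
    exact Ideal.mul_mem_right _ _ (mem_ltA x hi)

theorem constantCoeff_mem_of_mem_ltL {j : ℕ} {F : MvPowerSeries (Fin n) A} (hF : F ∈ ltL x j) :
    constantCoeff F ∈ ltA x j := by
  have h := ltL_le_comap x j hF
  rw [Ideal.mem_comap, mem_coeffIdeal] at h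
  have h0 := h 0
  rwa [PowerSeries.coeff_zero_eq_constantCoeff_apply, constantCoeff_ltPsi] at h0

theorem ltL_succ_le (j : ℕ) (hj : j < n) :
    ltL x (j + 1) ≤ ltL x j ⊔ Ideal.span {C (x ⟨j, hj⟩)} ⊔ Ideal.span {X ⟨j, hj⟩} := by
  refine sup_le (sup_le ?_ ?_) ?_
  · exact le_sup_of_le_left (le_sup_of_le_left (le_sup_of_le_left (le_sup_of_le_left le_rfl)))
  · rw [Ideal.map_le_iff_le_comap, ltA, Ideal.span_le]
    rintro _ ⟨i, hi, rfl⟩
    rw [SetLike.mem_coe, Ideal.mem_comap]
    rcases Nat.lt_succ_iff_lt_or_eq.1 hi with h | h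
    · refine Ideal.mem_sup_left (Ideal.mem_sup_left (Ideal.mem_sup_left (Ideal.mem_sup_right ?_)))
      exact Ideal.mem_map_of_mem _ (mem_ltA x h)
    · have : i = ⟨j, hj⟩ := Fin.ext h
      subst this
      exact Ideal.mem_sup_left (Ideal.mem_sup_right (Ideal.subset_span rfl))
  · rw [ltX, Ideal.span_le]
    rintro _ ⟨i, hi, rfl⟩
    rw [SetLike.mem_coe]
    rcases Nat.lt_succ_iff_lt_or_eq.1 hi with h | h
    · refine Ideal.mem_sup_left (Ideal.mem_sup_left (Ideal.mem_sup_right ?_))
      exact Ideal.subset_span ⟨i, h, rfl⟩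
    · have : i = ⟨j, hj⟩ := Fin.ext h
      subst this
      exact Ideal.mem_sup_right (Ideal.subset_span rfl)


theorem X_mem_jacobson_bot (i : Fin n) :
    Ideal.span {(X i : MvPowerSeries (Fin n) A)} ≤ (⊥ : Ideal (MvPowerSeries (Fin n) A)).jacobson := by
  rw [Ideal.span_le, Set.singleton_subset_iff, SetLike.mem_coe, Ideal.mem_jacobson_bot]
  intro y
  rw [isUnit_iff_constantCoeff]
  simp

/-- Krull intersection: an element which lies in `I + (X i ^ m)` for all `m` lies in `I`. -/
theorem mem_of_forall_mem_sup_span_X_pow [IsNoetherianRing A] (I : Ideal (MvPowerSeries (Fin n) A))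
    (i : Fin n) (F : MvPowerSeries (Fin n) A)
    (h : ∀ m : ℕ, F ∈ I ⊔ Ideal.span {(X i : MvPowerSeries (Fin n) A) ^ m}) : F ∈ I := by
  have hK := Ideal.iInf_pow_smul_eq_bot_of_le_jacobson (M := MvPowerSeries (Fin n) A ⧸ I)
    (Ideal.span {(X i : MvPowerSeries (Fin n) A)}) (X_mem_jacobson_bot i)
  have hmem : (Ideal.Quotient.mk I F) ∈
      (⨅ m : ℕ, (Ideal.span {(X i : MvPowerSeries (Fin n) A)}) ^ m •
        (⊤ : Submodule (MvPowerSeries (Fin n) A) (MvPowerSeries (Fin n) A ⧸ I))) := by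
    rw [Submodule.mem_iInf]
    intro m
    obtain ⟨a, ha, b, hb, rfl⟩ := Submodule.mem_sup.1 (h m)
    rw [map_add, Ideal.Quotient.eq_zero_iff_mem.2 ha, zero_add]
    have hb' : b ∈ (Ideal.span {(X i : MvPowerSeries (Fin n) A)}) ^ m := by
      rwa [Ideal.span_singleton_pow]
    have : Ideal.Quotient.mk I b = b • (Ideal.Quotient.mk I 1) := by
      have h1 := Submodule.Quotient.mk_smul I b (1 : MvPowerSeries (Fin n) A)
      rw [smul_eq_mul, mul_one] at h1
      exact h1
    rw [this]
    exact Submodule.smul_mem_smul hb' Submodule.mem_top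
  rw [hK, Submodule.mem_bot] at hmem
  exact Ideal.Quotient.eq_zero_iff_mem.1 hmem

/-- The regularity hypothesis: `x i` is a nonzerodivisor modulo `(x 0, …, x (i-1))`. -/
def IsRegSeq : Prop := ∀ i : Fin n, ∀ a : A, x i * a ∈ ltA x i → a ∈ ltA x i

theorem ltStep (hreg : IsRegSeq x) (j : ℕ) (hj : j < n)
    (ih : ∀ F, ltPsi x F ∈ coeffIdeal (ltA x (j + 1)) → F ∈ ltL x (j + 1))
    (F : MvPowerSeries (Fin n) A) (hF : ltPsi x F ∈ coeffIdeal (ltA x j)) :
    ∃ F', ltPsi x F' ∈ coeffIdeal (ltA x j) ∧ F - X ⟨j, hj⟩ * F' ∈ ltL x j := by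
  classical
  have hF1 : ltPsi x F ∈ coeffIdeal (ltA x (j + 1)) :=
    coeffIdeal_mono (ltA_mono x (Nat.le_succ j)) hF
  have hmem := ltL_succ_le x j hj (ih F hF1)
  obtain ⟨u, hu, E', hE', hFeq⟩ := Submodule.mem_sup.1 hmem
  obtain ⟨l, hl, H', hH', hueq⟩ := Submodule.mem_sup.1 hu
  obtain ⟨H, hH⟩ := Ideal.mem_span_singleton'.1 hH'
  obtain ⟨E, hE⟩ := Ideal.mem_span_singleton'.1 hE'
  have hH0 : constantCoeff (H - C (constantCoeff H)) = 0 := by simp
  obtain ⟨c, hc⟩ := Ideal.mem_span_range_iff_exists_fun.1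
    (mem_span_X_of_constantCoeff_eq_zero _ hH0)
  set i₀ : Fin n := ⟨j, hj⟩ with hi₀
  set F' := E + ∑ i, c i * C (x i) with hF'
  -- the key identity
  have hT : F - X i₀ * F' = l + C (constantCoeff H * x i₀) +
      ∑ i, c i * (C (x i₀) * X i - C (x i) * X i₀) := by
    have hHdec : H = C (constantCoeff H) + ∑ i, c i * X i := by rw [hc]; ring
    rw [← hFeq, ← hueq, ← hH, ← hE, hF', map_mul]
    conv_lhs => rw [hHdec]
    simp only [mul_sub, Finset.sum_sub_distrib, mul_add, add_mul, Finset.mul_sum, Finset.sum_mul]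
    have e1 : ∀ i, c i * X i * C (x i₀) = c i * (C (x i₀) * X i) := fun i => by ring
    have e2 : ∀ i, X i₀ * (c i * C (x i)) = c i * (C (x i) * X i₀) := fun i => by ring
    simp only [e1, e2]
    ring
  -- constant coefficient
  have hc0 : constantCoeff H * x i₀ ∈ ltA x j := by
    have h1 : constantCoeff F ∈ ltA x j := by
      have := hF 0
      rwa [PowerSeries.coeff_zero_eq_constantCoeff_apply, constantCoeff_ltPsi] at this
    have h2 : constantCoeff l ∈ ltA x j := constantCoeff_mem_of_mem_ltL x hl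
    have h3 : constantCoeff F = constantCoeff l + constantCoeff H * x i₀ := by
      rw [← hFeq, ← hueq, ← hH, ← hE]
      simp
    rw [h3] at h1
    exact (Ideal.add_mem_iff_right _ h2).1 h1
  have hTmem : F - X i₀ * F' ∈ ltL x j := by
    rw [hT]
    refine Ideal.add_mem _ (Ideal.add_mem _ hl ?_) ?_
    · exact Ideal.mem_sup_left (Ideal.mem_sup_right (Ideal.mem_map_of_mem _ hc0))
    · refine Ideal.sum_mem _ (fun i _ => Ideal.mul_mem_left _ _ ?_)
      exact Ideal.mem_sup_left (Ideal.mem_sup_left (Ideal.subset_span ⟨(i₀, i), rfl⟩))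
  refine ⟨F', ?_, hTmem⟩
  have h5 : ltPsi x (X i₀ * F') ∈ coeffIdeal (ltA x j) := by
    have : X i₀ * F' = F - (F - X i₀ * F') := by ring
    rw [this, map_sub]
    exact Ideal.sub_mem _ hF (ltL_le_comap x j hTmem)
  rw [map_mul, ltPsi_X] at h5
  intro d
  have h6 := h5 (d + 1)
  rw [mul_assoc, PowerSeries.coeff_C_mul, PowerSeries.coeff_succ_X_mul] at h6
  exact hreg i₀ _ h6

theorem ltIter (hreg : IsRegSeq x) (j : ℕ) (hj : j < n)
    (ih : ∀ F, ltPsi x F ∈ coeffIdeal (ltA x (j + 1)) → F ∈ ltL x (j + 1)) :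
    ∀ (m : ℕ) (F : MvPowerSeries (Fin n) A), ltPsi x F ∈ coeffIdeal (ltA x j) →
      F ∈ ltL x j ⊔ Ideal.span {(X ⟨j, hj⟩ : MvPowerSeries (Fin n) A) ^ m} := by
  intro m
  induction m with
  | zero =>
    intro F _
    rw [pow_zero, Ideal.span_singleton_one, sup_top_eq]
    exact Submodule.mem_top
  | succ m ihm =>
    intro F hF
    obtain ⟨F', hF', hmem⟩ := ltStep x hreg j hj ih F hF
    obtain ⟨l', hl', g', hg', hsum⟩ := Submodule.mem_sup.1 (ihm F' hF')
    obtain ⟨g, hg⟩ := Ideal.mem_span_singleton'.1 hg'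
    have : F = ((F - X ⟨j, hj⟩ * F') + X ⟨j, hj⟩ * l') + g * X ⟨j, hj⟩ ^ (m + 1) := by
      rw [← hsum, ← hg]; ring
    rw [this]
    refine Ideal.add_mem _ (Ideal.mem_sup_left (Ideal.add_mem _ hmem (Ideal.mul_mem_left _ _ hl')))
      (Ideal.mem_sup_right (Ideal.mul_mem_left _ _ (Ideal.subset_span rfl)))

theorem ltMain [IsNoetherianRing A] (hreg : IsRegSeq x) :
    ∀ (k j : ℕ), j + k = n → ∀ F, ltPsi x F ∈ coeffIdeal (ltA x j) → F ∈ ltL x j := by
  intro k
  induction k with
  | zero =>
    intro j hj F hF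
    have hjn : j = n := by omega
    subst hjn
    have h0 : constantCoeff (F - C (constantCoeff F)) = 0 := by simp
    have h1 := mem_span_X_of_constantCoeff_eq_zero _ h0
    have h2 : constantCoeff F ∈ ltA x j := by
      have := hF 0
      rwa [PowerSeries.coeff_zero_eq_constantCoeff_apply, constantCoeff_ltPsi] at this
    have h3 : F = C (constantCoeff F) + (F - C (constantCoeff F)) := by ring
    rw [h3]
    refine Ideal.add_mem _ (Ideal.mem_sup_left (Ideal.mem_sup_right (Ideal.mem_map_of_mem _ h2)))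
      (Ideal.mem_sup_right ?_)
    have hle : Ideal.span (Set.range (X : Fin j → MvPowerSeries (Fin j) A)) ≤ ltX A j j := by
      rw [Ideal.span_le]
      rintro _ ⟨i, rfl⟩
      exact Ideal.subset_span ⟨i, i.2, rfl⟩
    exact hle h1
  | succ k ihk =>
    intro j hj F hF
    have hjn : j < n := by omega
    have ih : ∀ F, ltPsi x F ∈ coeffIdeal (ltA x (j + 1)) → F ∈ ltL x (j + 1) :=
      ihk (j + 1) (by omega)
    exact mem_of_forall_mem_sup_span_X_pow _ ⟨j, hjn⟩ F
      (fun m => ltIter x hreg j hjn ih m F hF)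

/-- **Linear type.**  For a regular sequence `x` in a noetherian ring, the kernel of
`X i ↦ x i * t` is generated by the Koszul relations. -/
theorem ker_ltPsi [IsNoetherianRing A] (hreg : IsRegSeq x) :
    RingHom.ker (ltPsi x) = koszul x := by
  apply le_antisymm
  · intro F hF
    rw [RingHom.mem_ker] at hF
    have h1 : ltPsi x F ∈ coeffIdeal (ltA x 0) := by rw [hF]; exact Ideal.zero_mem _
    have h2 := ltMain x hreg n 0 (by omega) F h1
    have hA : ltA x 0 = ⊥ := by simp [ltA]
    have hX : ltX A n 0 = ⊥ := by simp [ltX]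
    rwa [ltL, hA, hX, Ideal.map_bot, sup_bot_eq, sup_bot_eq] at h2
  · exact koszul_le_ker x

/-- If `A` is a noetherian domain and `x` a regular sequence, the Koszul ideal is prime. -/
theorem koszul_isPrime [IsNoetherianRing A] [IsDomain A] (hreg : IsRegSeq x) :
    (koszul x).IsPrime := by
  rw [← ker_ltPsi x hreg]
  exact RingHom.ker_isPrime _

end LinearType

end Fermat.Agent.Ribet.H678
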