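import Fermat.Agent.Ribet.H678.RChiTower

/-!
# The type ideal of several pivots is prime (helper678)

`Amb O κ g = O⟦v_{q,0..2}, w_{q,0..2} (q ∈ κ), x_1..x_g⟧`; the type ideal is generated by
`v_{q,0}² + v_{q,1} v_{q,2} - δ_q²` and the minors `w_{q,i} v_{q,j} - w_{q,j} v_{q,i}`.
It is the kernel of the classifying map `Amb → T` to the tower `T` of `R_χ`'s over
`O⟦x_1..x_g⟧`, which is a domain.
-/

set_option autoImplicit false
set_option linter.unusedSectionVars false
set_option linter.style.haveILetI false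
set_option linter.unusedSimpArgs false

universe u

namespace Fermat.Agent.Ribet.H678

open MvPowerSeries IsLocalRing Fermat.Agent.S53.H596

section Amb

/-- the ambient power series ring -/
abbrev Amb (O : Type u) [CommRing O] (κ : Type) (g : ℕ) : Type u :=
  MvPowerSeries ((κ × Fin 6) ⊕ Fin g) O

variable (O : Type u) [CommRing O] {κ : Type} (g : ℕ)

/-- the variable `v_{q,j}` -/
noncomputable def ambV (q : κ) (j : Fin 3) : Amb O κ g :=
  MvPowerSeries.X (Sum.inl (q, Fin.castLE (by norm_num) j))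

/-- the variable `w_{q,j}` -/
noncomputable def ambW (q : κ) (j : Fin 3) : Amb O κ g :=
  MvPowerSeries.X (Sum.inl (q, Fin.natAdd 3 j))

/-- the type ideal -/
noncomputable def typeIdealA (δ : κ → O) : Ideal (Amb O κ g) :=
  Ideal.span ({a | ∃ q : κ, a = (ambV O g q 0 ^ 2 + ambV O g q 1 * ambV O g q 2) -
      MvPowerSeries.C (δ q) ^ 2} ∪
    {a | ∃ (q : κ) (i j : Fin 3), a = ambW O g q i * ambV O g q j - ambW O g q j * ambV O g q i})

end Amb

section Classify

variable {O : Type u} [CommRing O] [IsLocalRing O] {κ : Type} {g : ℕ}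
variable {T : Type u} [CommRing T] [IsLocalRing T] [Algebra O T]

/-- the images of the variables in a ring with points `(y, z, v, b, c, u)_q` and elements `x_i` -/
def ambCoord (half : T) (pt : κ → Fin 6 → T) (x : Fin g → T) : (κ × Fin 6) ⊕ Fin g → T
  | Sum.inl (q, j) => ![half * pt q 2, pt q 0, pt q 1, half * pt q 5, pt q 3, pt q 4] j
  | Sum.inr i => x i

theorem ambCoord_mem (half : T) (pt : κ → Fin 6 → T) (x : Fin g → T)
    (hpt : ∀ q j, pt q j ∈ maximalIdeal T) (hx : ∀ i, x i ∈ maximalIdeal T)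
    (i : (κ × Fin 6) ⊕ Fin g) : ambCoord half pt x i ∈ maximalIdeal T := by
  rcases i with ⟨q, j⟩ | i
  · fin_cases j
    · exact Ideal.mul_mem_left _ _ (hpt q 2)
    · exact hpt q 0
    · exact hpt q 1
    · exact Ideal.mul_mem_left _ _ (hpt q 5)
    · exact hpt q 3
    · exact hpt q 4
  · exact hx i

variable [Finite κ] [IsAdicComplete (maximalIdeal T) T]

/-- the classifying map `Amb → T` -/
noncomputable def ambHom (half : T) (pt : κ → Fin 6 → T) (x : Fin g → T)
    (hpt : ∀ q j, pt q j ∈ maximalIdeal T) (hx : ∀ i, x i ∈ maximalIdeal T) :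
    Amb O κ g →ₐ[O] T :=
  evalCNL (maximalIdeal T) (ambCoord half pt x) (ambCoord_mem half pt x hpt hx)

variable (half : T) (pt : κ → Fin 6 → T) (x : Fin g → T)
  (hpt : ∀ q j, pt q j ∈ maximalIdeal T) (hx : ∀ i, x i ∈ maximalIdeal T)

theorem ambHom_X (i : (κ × Fin 6) ⊕ Fin g) :
    ambHom (O := O) half pt x hpt hx (MvPowerSeries.X i) = ambCoord half pt x i :=
  evalCNL_X _ _ _ i

theorem ambHom_V0 (q : κ) : ambHom (O := O) half pt x hpt hx (ambV O g q 0) = half * pt q 2 :=
  ambHom_X half pt x hpt hx _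
theorem ambHom_V1 (q : κ) : ambHom (O := O) half pt x hpt hx (ambV O g q 1) = pt q 0 :=
  ambHom_X half pt x hpt hx _
theorem ambHom_V2 (q : κ) : ambHom (O := O) half pt x hpt hx (ambV O g q 2) = pt q 1 :=
  ambHom_X half pt x hpt hx _
theorem ambHom_W0 (q : κ) : ambHom (O := O) half pt x hpt hx (ambW O g q 0) = half * pt q 5 :=
  ambHom_X half pt x hpt hx _
theorem ambHom_W1 (q : κ) : ambHom (O := O) half pt x hpt hx (ambW O g q 1) = pt q 3 :=
  ambHom_X half pt x hpt hx _
theorem ambHom_W2 (q : κ) : ambHom (O := O) half pt x hpt hx (ambW O g q 2) = pt q 4 :=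
  ambHom_X half pt x hpt hx _

theorem ambHom_C (r : O) :
    ambHom (O := O) half pt x hpt hx (MvPowerSeries.C r) = algebraMap O T r := by
  rw [c_eq_algebraMap]
  exact AlgHom.commutes _ r

/-- the type ideal dies in every ring with points satisfying the relations -/
theorem typeIdealA_le_ker (δ : κ → O) (hh : 2 * half = 1)
    (rel_v : ∀ q, pt q 2 * pt q 2 = 4 * algebraMap O T (δ q) ^ 2 - 4 * pt q 0 * pt q 1)
    (rel_yc : ∀ q, pt q 0 * pt q 4 = pt q 1 * pt q 3)
    (rel_yu : ∀ q, pt q 0 * pt q 5 = pt q 2 * pt q 3)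
    (rel_zu : ∀ q, pt q 1 * pt q 5 = pt q 2 * pt q 4) :
    typeIdealA O g δ ≤ RingHom.ker (ambHom (O := O) half pt x hpt hx) := by
  rw [typeIdealA, Ideal.span_le]
  rintro a (⟨q, rfl⟩ | ⟨q, i, j, rfl⟩)
  · rw [SetLike.mem_coe, RingHom.mem_ker, map_sub, map_add, map_pow, map_mul, map_pow, ambHom_V0,
      ambHom_V1, ambHom_V2, ambHom_C]
    linear_combination half ^ 2 * rel_v q +
      (algebraMap O T (δ q) ^ 2 - pt q 0 * pt q 1) * (2 * half + 1) * hh
  · rw [SetLike.mem_coe, RingHom.mem_ker, map_sub, map_mul, map_mul]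
    fin_cases i <;> fin_cases j <;>
      simp only [Fin.zero_eta, Fin.mk_one, Fin.reduceFinMk, ambHom_V0, ambHom_V1, ambHom_V2,
        ambHom_W0, ambHom_W1, ambHom_W2] <;>
      first
        | ring1
        | linear_combination half * rel_yu q
        | linear_combination (-half) * rel_yu q
        | linear_combination half * rel_zu q
        | linear_combination (-half) * rel_zu q
        | linear_combination rel_yc q
        | linear_combination -rel_yc q

end Classify

section Quot

variable {O : Type u} [CommRing O] [IsLocalRing O] {κ : Type} [Finite κ] {g : ℕ}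

theorem typeIdealA_le_maximalIdeal (δ : κ → O) (hδ : ∀ q, δ q ∈ maximalIdeal O) :
    typeIdealA O g δ ≤ maximalIdeal (Amb O κ g) := by
  rw [typeIdealA, Ideal.span_le]
  rintro a (⟨q, rfl⟩ | ⟨q, i, j, rfl⟩)
  · refine Ideal.sub_mem _ (Ideal.add_mem _ ?_ ?_) ?_
    · rw [pow_two]
      exact Ideal.mul_mem_left _ _ (X_mem_maximalIdeal_mvPowerSeries _)
    · exact Ideal.mul_mem_left _ _ (X_mem_maximalIdeal_mvPowerSeries _)
    · rw [pow_two]
      exact Ideal.mul_mem_left _ _ (C_mem_maximalIdeal_mvPowerSeries (hδ q))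
  · exact Ideal.sub_mem _ (Ideal.mul_mem_left _ _ (X_mem_maximalIdeal_mvPowerSeries _))
      (Ideal.mul_mem_left _ _ (X_mem_maximalIdeal_mvPowerSeries _))

theorem typeIdealA_ne_top (δ : κ → O) (hδ : ∀ q, δ q ∈ maximalIdeal O) :
    typeIdealA O g δ ≠ ⊤ := by
  intro h
  have := typeIdealA_le_maximalIdeal (g := g) δ hδ
  rw [h, top_le_iff] at this
  exact (maximalIdeal.isMaximal (Amb O κ g)).ne_top this

theorem typeIdealA_relQ (δ : κ → O) (q : κ) :
    Ideal.Quotient.mk (typeIdealA O g δ) (ambV O g q 0) ^ 2 +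
      Ideal.Quotient.mk (typeIdealA O g δ) (ambV O g q 1) *
        Ideal.Quotient.mk (typeIdealA O g δ) (ambV O g q 2) =
      Ideal.Quotient.mk (typeIdealA O g δ) (MvPowerSeries.C (δ q)) ^ 2 := by
  rw [← sub_eq_zero, ← map_pow, ← map_mul, ← map_add, ← map_pow, ← map_sub,
    Ideal.Quotient.eq_zero_iff_mem]
  exact Ideal.subset_span (Or.inl ⟨q, rfl⟩)

theorem typeIdealA_relM (δ : κ → O) (q : κ) (i j : Fin 3) :
    Ideal.Quotient.mk (typeIdealA O g δ) (ambW O g q i) *
        Ideal.Quotient.mk (typeIdealA O g δ) (ambV O g q j) =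
      Ideal.Quotient.mk (typeIdealA O g δ) (ambW O g q j) *
        Ideal.Quotient.mk (typeIdealA O g δ) (ambV O g q i) := by
  rw [← sub_eq_zero, ← map_mul, ← map_mul, ← map_sub, Ideal.Quotient.eq_zero_iff_mem]
  exact Ideal.subset_span (Or.inr ⟨q, i, j, rfl⟩)

end Quot

section Kernel

variable {O : Type u} [CommRing O] [IsLocalRing O] {σ : Type} [Finite σ]
variable {T : Type u} [CommRing T] [Algebra O T]

/-- kernel criterion: if `θ : O⟦X⟧ → T` kills `I` and has a retraction `T → O⟦X⟧ ⧸ I` on the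
variables, then `ker θ = I`. -/
theorem ker_eq_of_retraction (θ : MvPowerSeries σ O →ₐ[O] T) (I : Ideal (MvPowerSeries σ O))
    (hI : I ≤ RingHom.ker θ) (J : Ideal (MvPowerSeries σ O ⧸ I))
    (hH : IsHausdorff J (MvPowerSeries σ O ⧸ I))
    (hJ : ∀ i, Ideal.Quotient.mk I (MvPowerSeries.X i) ∈ J)
    (ρ : T →+* MvPowerSeries σ O ⧸ I)
    (hρ : ∀ r : O, ρ (algebraMap O T r) = algebraMap O (MvPowerSeries σ O ⧸ I) r)
    (hX : ∀ i, ρ (θ (MvPowerSeries.X i)) = Ideal.Quotient.mk I (MvPowerSeries.X i)) :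
    RingHom.ker θ = I := by
  refine le_antisymm ?_ hI
  let f₁ : MvPowerSeries σ O →ₐ[O] MvPowerSeries σ O ⧸ I :=
    { ρ.comp (θ : MvPowerSeries σ O →+* T) with
      commutes' := fun r => by
        show ρ (θ (algebraMap O _ r)) = _
        rw [AlgHom.commutes, hρ] }
  have h12 : f₁ = Ideal.Quotient.mkₐ O I := by
    haveI := hH
    apply algHom_ext_of_X J
    · intro i
      show ρ (θ (MvPowerSeries.X i)) ∈ _
      rw [hX]
      exact hJ i
    · intro i
      exact hX i
  intro a ha
  rw [RingHom.mem_ker] at ha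
  have h1 : f₁ a = 0 := by
    show ρ (θ a) = 0
    rw [ha, map_zero]
  rw [h12] at h1
  exact Ideal.Quotient.eq_zero_iff_mem.1 h1

end Kernel

section Main

variable {O : Type u} [CommRing O] [IsLocalRing O] [IsNoetherianRing O]
  [IsAdicComplete (maximalIdeal O) O] {κ : Type} [Finite κ] {g : ℕ}

/-- the point of the quotient `Amb ⧸ typeIdeal` at the pivot `q`, over any base ring `O'` whose
structure map is compatible with `c` -/
noncomputable def quotPoint {O' : Type u} [CommRing O'] [IsLocalRing O'] (P' : ChiDatum O')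
    (δ : κ → O) (hδ : ∀ q, δ q ∈ maximalIdeal O) (q : κ)
    (inst : Algebra O' (Amb O κ g ⧸ typeIdealA O g δ))
    (hc : algebraMap O' (Amb O κ g ⧸ typeIdealA O g δ) P'.c =
      4 * Ideal.Quotient.mk (typeIdealA O g δ) (MvPowerSeries.C (δ q)) ^ 2) :
    letI := isLocalRing_quotient (typeIdealA O g δ) (typeIdealA_ne_top δ hδ)
    ChiPoint P' (Amb O κ g ⧸ typeIdealA O g δ) :=
  letI := isLocalRing_quotient (typeIdealA O g δ) (typeIdealA_ne_top δ hδ)
  haveI := isLocalHom_quotient_mk (typeIdealA O g δ) (typeIdealA_ne_top δ hδ)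
  have hm : ∀ i, Ideal.Quotient.mk (typeIdealA O g δ) (MvPowerSeries.X i) ∈
      maximalIdeal (Amb O κ g ⧸ typeIdealA O g δ) := fun i hu =>
    X_mem_maximalIdeal_mvPowerSeries i (isUnit_of_map_unit (Ideal.Quotient.mk _) _ hu)
  { y := Ideal.Quotient.mk _ (ambV O g q 1)
    z := Ideal.Quotient.mk _ (ambV O g q 2)
    v := 2 * Ideal.Quotient.mk _ (ambV O g q 0)
    b := Ideal.Quotient.mk _ (ambW O g q 1)
    c := Ideal.Quotient.mk _ (ambW O g q 2)
    u := 2 * Ideal.Quotient.mk _ (ambW O g q 0)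
    hy := hm _
    hz := hm _
    hb := hm _
    hc := hm _
    hu := Ideal.mul_mem_left _ _ (hm _)
    rel_v := by
      rw [hc]
      linear_combination 4 * typeIdealA_relQ (g := g) δ q
    rel_yc := by
      linear_combination -typeIdealA_relM (g := g) δ q 1 2
    rel_yu := by
      linear_combination 2 * typeIdealA_relM (g := g) δ q 0 1
    rel_zu := by
      linear_combination 2 * typeIdealA_relM (g := g) δ q 0 2 }

theorem mem_maximalIdeal_of_four_mul_sq (half : O) (hh : 2 * half = 1) (d : O)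
    (h : 4 * d ^ 2 ∈ maximalIdeal O) : d ∈ maximalIdeal O := by
  have h4 : IsUnit (4 : O) := by
    refine IsUnit.of_mul_eq_one (half * half) ?_
    linear_combination (2 * half + 1) * hh
  have h2 : d ^ 2 ∈ maximalIdeal O := (Ideal.unit_mul_mem_iff_mem _ h4).1 h
  exact (maximalIdeal.isMaximal O).isPrime.mem_of_pow_mem 2 h2

/-- **The type ideal of several pivots is prime.** -/
theorem typeIdealA_isPrime {lam : O} (hgood : GoodEmb O lam) (half : O) (hh : 2 * half = 1)
    (P : κ → ChiDatum O) (δ : κ → O) (hc : ∀ q, (P q).c = 4 * δ q ^ 2)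
    (hlam : ∀ q, lam ∣ δ q) (hc0 : ∀ q, (P q).c ≠ 0) :
    (typeIdealA O g δ).IsPrime := by
  classical
  have hδm : ∀ q, δ q ∈ maximalIdeal O := fun q =>
    mem_maximalIdeal_of_four_mul_sq half hh _ (hc q ▸ (P q).c_mem)
  -- the base ring `O' = O⟦x⟧`
  haveI hcompl : IsAdicComplete (maximalIdeal (MvPowerSeries (Fin g) O))
      (MvPowerSeries (Fin g) O) := isAdicComplete_mvPowerSeries
  let P' : κ → ChiDatum (MvPowerSeries (Fin g) O) := fun q =>
    (P q).map (C : O →+* MvPowerSeries (Fin g) O) (fun x hx => C_mem_maximalIdeal_mvPowerSeries hx)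
  have hP'c : ∀ q, (P' q).c = C ((P q).c) := fun q => ChiDatum.map_c _ _ _
  obtain ⟨W⟩ := exists_chiTower (hgood.mvPowerSeries (Fin g)) κ P'
    (fun q => by
      rw [hP'c, hc]
      exact map_dvd C (Dvd.dvd.mul_left (Dvd.dvd.pow (hlam q) two_ne_zero) 4))
    (fun q => by
      rw [hP'c]
      intro h
      apply hc0 q
      have := congrArg (constantCoeff (σ := Fin g) (R := O)) h
      simpa using this)
  haveI := W.good.isDomain
  -- the `O`-algebra structure of the tower
  letI algOT : Algebra O W.T :=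
    ((algebraMap (MvPowerSeries (Fin g) O) W.T).comp
      (C : O →+* MvPowerSeries (Fin g) O)).toAlgebra
  have hhT : 2 * algebraMap O W.T half = 1 := by
    rw [← map_ofNat (algebraMap O W.T) 2, ← map_mul, hh, map_one]
  have hpt : ∀ q j, (W.pt q).coords j ∈ maximalIdeal W.T := fun q j =>
    (W.pt q).coords_mem W.map_mem j
  have hxs : ∀ i : Fin g, algebraMap (MvPowerSeries (Fin g) O) W.T (X i) ∈ maximalIdeal W.T :=
    fun i => W.map_mem _ (X_mem_maximalIdeal_mvPowerSeries i)
  have hle : typeIdealA O g δ ≤ RingHom.ker (ambHom (O := O) (algebraMap O W.T half)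
      (fun q => (W.pt q).coords) (fun i => algebraMap (MvPowerSeries (Fin g) O) W.T (X i))
      hpt hxs) := by
    refine typeIdealA_le_ker _ _ _ hpt hxs δ hhT ?_ (fun q => (W.pt q).rel_yc)
      (fun q => (W.pt q).rel_yu) (fun q => (W.pt q).rel_zu)
    intro q
    have h1 := (W.pt q).rel_v
    rw [hP'c, hc] at h1
    have h2 : algebraMap (MvPowerSeries (Fin g) O) W.T (C (4 * δ q ^ 2)) =
        4 * algebraMap O W.T (δ q) ^ 2 := by
      have : algebraMap (MvPowerSeries (Fin g) O) W.T (C (4 * δ q ^ 2)) =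
          algebraMap O W.T (4 * δ q ^ 2) := rfl
      rw [this, map_mul, map_pow, map_ofNat]
    rw [h2] at h1
    exact h1
  -- the quotient
  have hne := typeIdealA_ne_top (g := g) δ hδm
  letI locA := isLocalRing_quotient (typeIdealA O g δ) hne
  haveI : IsAdicComplete (maximalIdeal (Amb O κ g)) (Amb O κ g) := isAdicComplete_mvPowerSeries
  haveI complA := isAdicComplete_quotient (typeIdealA O g δ) hne
  haveI := isLocalHom_quotient_mk (typeIdealA O g δ) hne
  have hmX : ∀ i, Ideal.Quotient.mk (typeIdealA O g δ) (MvPowerSeries.X i) ∈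
      maximalIdeal (Amb O κ g ⧸ typeIdealA O g δ) := fun i hu =>
    X_mem_maximalIdeal_mvPowerSeries i (isUnit_of_map_unit (Ideal.Quotient.mk _) _ hu)
  let φ₀ : MvPowerSeries (Fin g) O →ₐ[O] (Amb O κ g ⧸ typeIdealA O g δ) :=
    evalCNL (maximalIdeal (Amb O κ g ⧸ typeIdealA O g δ))
      (fun i => Ideal.Quotient.mk (typeIdealA O g δ) (MvPowerSeries.X (Sum.inr i)))
      (fun i => hmX _)
  letI algO'A : Algebra (MvPowerSeries (Fin g) O) (Amb O κ g ⧸ typeIdealA O g δ) :=
    φ₀.toRingHom.toAlgebra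
  have hφC : ∀ r : O, algebraMap (MvPowerSeries (Fin g) O) (Amb O κ g ⧸ typeIdealA O g δ) (C r) =
      algebraMap O (Amb O κ g ⧸ typeIdealA O g δ) r := fun r => by
    show φ₀ (C r) = _
    rw [c_eq_algebraMap]
    exact φ₀.commutes r
  have hφX : ∀ i : Fin g,
      algebraMap (MvPowerSeries (Fin g) O) (Amb O κ g ⧸ typeIdealA O g δ) (X i) =
        Ideal.Quotient.mk (typeIdealA O g δ) (MvPowerSeries.X (Sum.inr i)) := fun i =>
    evalCNL_X _ _ _ i
  have hmkC : ∀ r : O, algebraMap O (Amb O κ g ⧸ typeIdealA O g δ) r =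
      Ideal.Quotient.mk (typeIdealA O g δ) (C r) := fun r => rfl
  let pts : ∀ q, ChiPoint (P' q) (Amb O κ g ⧸ typeIdealA O g δ) := fun q =>
    quotPoint (P' q) δ hδm q algO'A (by
      rw [hP'c, hφC, hc, hmkC]
      simp only [map_mul, map_pow, map_ofNat])
  have hpts : ∀ q j, (pts q).coords j =
      ![Ideal.Quotient.mk (typeIdealA O g δ) (ambV O g q 1),
        Ideal.Quotient.mk (typeIdealA O g δ) (ambV O g q 2),
        2 * Ideal.Quotient.mk (typeIdealA O g δ) (ambV O g q 0),
        Ideal.Quotient.mk (typeIdealA O g δ) (ambW O g q 1),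
        Ideal.Quotient.mk (typeIdealA O g δ) (ambW O g q 2),
        2 * Ideal.Quotient.mk (typeIdealA O g δ) (ambW O g q 0)] j := fun q j => rfl
  -- the retraction
  have hker := ker_eq_of_retraction (ambHom (O := O) (algebraMap O W.T half)
      (fun q => (W.pt q).coords) (fun i => algebraMap (MvPowerSeries (Fin g) O) W.T (X i))
      hpt hxs) (typeIdealA O g δ) hle (maximalIdeal (Amb O κ g ⧸ typeIdealA O g δ))
    inferInstance hmX (W.lift _ pts).toRingHom
    (fun r => by
      have h1 : algebraMap O W.T r = algebraMap (MvPowerSeries (Fin g) O) W.T (C r) := rfl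
      show (W.lift _ pts) (algebraMap O W.T r) = _
      rw [h1, AlgHom.commutes, hφC])
    (fun i => by
      show (W.lift _ pts) (ambHom (O := O) (algebraMap O W.T half)
        (fun q => (W.pt q).coords) (fun i => algebraMap (MvPowerSeries (Fin g) O) W.T (X i))
        hpt hxs (MvPowerSeries.X i)) = _
      rw [ambHom_X]
      have hhA : 2 * algebraMap O (Amb O κ g ⧸ typeIdealA O g δ) half = 1 := by
        rw [← map_ofNat (algebraMap O (Amb O κ g ⧸ typeIdealA O g δ)) 2, ← map_mul, hh, map_one]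
      have hhalf : (W.lift _ pts) (algebraMap O W.T half) =
          algebraMap O (Amb O κ g ⧸ typeIdealA O g δ) half := by
        have h1 : algebraMap O W.T half = algebraMap (MvPowerSeries (Fin g) O) W.T (C half) := rfl
        rw [h1, AlgHom.commutes, hφC]
      rcases i with ⟨q, j⟩ | k
      · fin_cases j
        · show (W.lift _ pts) (algebraMap O W.T half * (W.pt q).coords 2) = _
          rw [map_mul, hhalf, W.lift_pt _ pts q 2, hpts]
          show algebraMap O _ half * (2 * Ideal.Quotient.mk _ (ambV O g q 0)) = _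
          rw [← mul_assoc, mul_comm _ 2, hhA, one_mul]
          rfl
        · show (W.lift _ pts) ((W.pt q).coords 0) = _
          rw [W.lift_pt _ pts q 0, hpts]
          rfl
        · show (W.lift _ pts) ((W.pt q).coords 1) = _
          rw [W.lift_pt _ pts q 1, hpts]
          rfl
        · show (W.lift _ pts) (algebraMap O W.T half * (W.pt q).coords 5) = _
          rw [map_mul, hhalf, W.lift_pt _ pts q 5, hpts]
          show algebraMap O _ half * (2 * Ideal.Quotient.mk _ (ambW O g q 0)) = _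
          rw [← mul_assoc, mul_comm _ 2, hhA, one_mul]
          rfl
        · show (W.lift _ pts) ((W.pt q).coords 3) = _
          rw [W.lift_pt _ pts q 3, hpts]
          rfl
        · show (W.lift _ pts) ((W.pt q).coords 4) = _
          rw [W.lift_pt _ pts q 4, hpts]
          rfl
      · show (W.lift _ pts) (algebraMap (MvPowerSeries (Fin g) O) W.T (X k)) = _
        rw [AlgHom.commutes, hφX])
  rw [← hker]
  exact RingHom.ker_isPrime _

end Main

end Fermat.Agent.Ribet.H678
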