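import Fermat.Agent.S38.IA.Spec2
import Fermat.Agent.Ribet.H678.TypePrime

/-!
# LOC-PRIME of row HARD, verbatim (helper678)

`iaLocPrime : Fermat.Agent.S38.IA.IALocPrimeStatement`: the type ideal of a vector of type values
at several pivots is prime.  Proof: `typeIdealA_isPrime` (tower of `R_χ`'s over `𝒪⟦x⟧`).
-/

set_option autoImplicit false
set_option linter.unusedSectionVars false
set_option linter.style.haveILetI false
set_option linter.unusedSimpArgs false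

namespace Fermat.Agent.Ribet.H678

open IsLocalRing Fermat.Agent.S38.IA

section TypeValue

variable {𝒪 : Type} [CommRing 𝒪] [IsLocalRing 𝒪]

/-- `2` is a unit when the odd prime `p` is not. -/
theorem isUnit_two_of_odd_prime {p : ℕ} (hp : p.Prime) (hp2 : p ≠ 2)
    (hp𝒪 : (p : 𝒪) ∈ maximalIdeal 𝒪) : IsUnit (2 : 𝒪) := by
  by_contra h2
  have h2' : (2 : 𝒪) ∈ maximalIdeal 𝒪 := h2
  obtain ⟨k, hk⟩ := hp.odd_of_ne_two hp2
  have h1 : (1 : 𝒪) ∈ maximalIdeal 𝒪 := by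
    have e : (1 : 𝒪) = (p : 𝒪) - 2 * (k : 𝒪) := by
      rw [hk]
      push_cast
      ring
    rw [e]
    exact Ideal.sub_mem _ hp𝒪 (Ideal.mul_mem_right _ _ h2')
  exact (maximalIdeal.isMaximal 𝒪).ne_top ((Ideal.eq_top_iff_one _).2 h1)

/-- a root of unity of `p`-power order is `≡ 1` -/
theorem sub_one_mem_of_pow_prime_pow {p : ℕ} (hp : p.Prime) (hp𝒪 : (p : 𝒪) ∈ maximalIdeal 𝒪)
    {ζ : 𝒪} {m : ℕ} (hζ : ζ ^ p ^ m = 1) : ζ - 1 ∈ maximalIdeal 𝒪 := by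
  obtain ⟨r, hr⟩ := exists_add_pow_prime_pow_eq hp (ζ - 1) 1 m
  rw [sub_add_cancel, hζ, one_pow] at hr
  have h1 : (ζ - 1) ^ p ^ m = -((p : 𝒪) * (ζ - 1) * 1 * r) := by linear_combination -hr
  have h2 : (ζ - 1) ^ p ^ m ∈ maximalIdeal 𝒪 := by
    rw [h1, neg_mem_iff, mul_assoc, mul_assoc]
    exact Ideal.mul_mem_right _ _ hp𝒪
  exact (maximalIdeal.isMaximal 𝒪).isPrime.mem_of_pow_mem _ h2

/-- the datum of a type value -/
theorem exists_chiDatum_of_isTypeValue [IsDomain 𝒪] [CharZero 𝒪] {p : ℕ} (hp : p.Prime)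
    (hp2 : p ≠ 2) (hp𝒪 : (p : 𝒪) ∈ maximalIdeal 𝒪) (half : 𝒪) (hh : 2 * half = 1) {q : ℕ}
    {δ : 𝒪} (hδ : IsTypeValue p q δ) :
    ∃ P : ChiDatum 𝒪, P.c = 4 * δ ^ 2 ∧ P.c ≠ 0 := by
  obtain ⟨ζ, hζ1, ⟨m, hζm⟩, -, hζδ⟩ := hδ
  have hpm : 0 < p ^ m := pow_pos hp.pos m
  set ζ' : 𝒪 := ζ ^ (p ^ m - 1) with hζ'
  have hinv : ζ * ζ' = 1 := by
    rw [hζ', ← pow_succ', Nat.sub_add_cancel hpm, hζm]
  have h2δ : 2 * δ = ζ - ζ' := by
    linear_combination ζ' * hζδ + (-(2 * δ) + ζ) * hinv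
  have hmem := sub_one_mem_of_pow_prime_pow hp hp𝒪 hζm
  refine ⟨{ half := half
            two_half := hh
            eps := 1
            epsInv := 1
            eps_inv := one_mul 1
            T := ζ + ζ'
            hT := ?_ }, ?_, ?_⟩
  · have e : ζ + ζ' - 2 = ζ' * (ζ - 1) * (ζ - 1) := by
      linear_combination (2 - ζ) * hinv
    rw [e]
    exact Ideal.mul_mem_left _ _ hmem
  · show (ζ + ζ') ^ 2 - 4 = 4 * δ ^ 2
    linear_combination (4 : 𝒪) * hinv - (2 * δ + ζ - ζ') * h2δ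
  · show (ζ + ζ') ^ 2 - 4 ≠ 0
    have e : (ζ + ζ') ^ 2 - 4 = (2 * δ) ^ 2 := by
      linear_combination (4 : 𝒪) * hinv - (2 * δ + ζ - ζ') * h2δ
    rw [e]
    apply pow_ne_zero
    -- `2 δ ζ = ζ² - 1 ≠ 0`
    intro h0
    have hz2 : ζ ^ 2 = 1 := by linear_combination -hζδ + ζ * h0
    obtain ⟨k, hk⟩ := (hp.odd_of_ne_two hp2).pow (n := m)
    apply hζ1
    have : ζ ^ p ^ m = ζ := by
      rw [hk, pow_succ, pow_mul, hz2, one_pow, one_mul]
    rw [← this, hζm]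

end TypeValue

/-- **LOC-PRIME, verbatim.** -/
theorem iaLocPrime : IALocPrimeStatement := by
  intro p hpF hp2 𝒪 _ _ _ _ _ hp𝒪 Piv _hPiv g δ hδ
  classical
  have hp : p.Prime := hpF.out
  obtain ⟨half, hh⟩ := (isUnit_two_of_odd_prime hp hp2 hp𝒪).exists_right_inv
  obtain ⟨ϖ, hϖ⟩ := IsDiscreteValuationRing.exists_irreducible 𝒪
  have hϖp : Prime ϖ := hϖ.prime
  have hex : ∀ q : Piv, ∃ P : ChiDatum 𝒪, P.c = 4 * δ q ^ 2 ∧ P.c ≠ 0 := fun q =>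
    exists_chiDatum_of_isTypeValue hp hp2 hp𝒪 half hh (hδ q)
  choose P hPc hP0 using hex
  have hlam : ∀ q : Piv, ϖ ∣ δ q := by
    intro q
    have h1 : δ q ∈ maximalIdeal 𝒪 :=
      mem_maximalIdeal_of_four_mul_sq half hh _ (hPc q ▸ (P q).c_mem)
    rw [hϖ.maximalIdeal_eq, Ideal.mem_span_singleton] at h1
    exact h1
  exact typeIdealA_isPrime (O := 𝒪) (κ := Piv) (g := g) (GoodEmb.of_prime hϖp) half hh P δ hPc
    hlam hP0

end Fermat.Agent.Ribet.H678
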