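import Fermat.Agent.S38.IA.Spec3
import Fermat.Agent.Ribet.H678.LocPrime

/-!
# LOC-COMP of row HARD, verbatim (helper678)

`iaLocComp : Fermat.Agent.S38.IA.IALocCompStatement`, with `𝔓 = typeIdeal δ` (which is prime:
`iaLocPrime`).
-/

set_option autoImplicit false

namespace Fermat.Agent.Ribet.H678

/-- **LOC-COMP, verbatim.** -/
theorem iaLocComp : Fermat.Agent.S38.IA.IALocCompStatement :=
  Fermat.Agent.S38.IA.iaLocComp_of_prime iaLocPrime

end Fermat.Agent.Ribet.H678
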