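import Fermat.Agent.Ribet.H678.QuadPS
import Fermat.Agent.S53.H596.PowerSeriesCNL

/-!
# `B[ω]/(ω² = g)` over a complete local ring `B`, `g ∈ 𝔪_B` (helper678)

Local ring structure, completeness, the lifting of ring homomorphisms, for the quadratic
algebra `QuadraticAlgebra B g 0` with `g` in the maximal ideal.
-/

set_option autoImplicit false
set_option linter.unusedSectionVars false
set_option linter.style.haveILetI false
set_option linter.unusedSimpArgs false

namespace Fermat.Agent.Ribet.H678

open QuadraticAlgebra IsLocalRing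

section QuadLocal

variable {B : Type*} [CommRing B] [IsLocalRing B] {g : B}

theorem quad_isUnit_iff (hg : g ∈ maximalIdeal B) (w : QuadraticAlgebra B g 0) :
    IsUnit w ↔ IsUnit w.re := by
  rw [isUnit_iff_norm_isUnit, norm_def]
  have h1 : w.re * w.re + 0 * w.re * w.im - g * w.im * w.im =
      w.re * w.re + (-(g * w.im * w.im)) := by ring
  rw [h1]
  have hm : -(g * w.im * w.im) ∈ maximalIdeal B := by
    rw [neg_mem_iff, mul_assoc]
    exact Ideal.mul_mem_right _ _ hg
  constructor
  · intro h
    by_contra hre
    have hre' : w.re ∈ maximalIdeal B := hre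
    have : w.re * w.re + -(g * w.im * w.im) ∈ maximalIdeal B :=
      Ideal.add_mem _ (Ideal.mul_mem_left _ _ hre') hm
    exact this h
  · intro h
    have hu : IsUnit (w.re * w.re) := h.mul h
    by_contra hn
    have hn' : w.re * w.re + -(g * w.im * w.im) ∈ maximalIdeal B := hn
    have : w.re * w.re ∈ maximalIdeal B := by
      have := Ideal.sub_mem _ hn' hm
      simpa using this
    exact this hu

theorem quad_isLocalRing (hg : g ∈ maximalIdeal B) : IsLocalRing (QuadraticAlgebra B g 0) := by
  apply IsLocalRing.of_nonunits_add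
  intro a b ha hb
  rw [mem_nonunits_iff, quad_isUnit_iff hg] at ha hb ⊢
  rw [re_add]
  have ha' : a.re ∈ maximalIdeal B := ha
  have hb' : b.re ∈ maximalIdeal B := hb
  exact Ideal.add_mem _ ha' hb'

theorem quad_mem_maximalIdeal (hg : g ∈ maximalIdeal B) (w : QuadraticAlgebra B g 0) :
    letI := quad_isLocalRing hg
    w ∈ maximalIdeal (QuadraticAlgebra B g 0) ↔ w.re ∈ maximalIdeal B := by
  letI := quad_isLocalRing hg
  rw [mem_maximalIdeal, mem_maximalIdeal, mem_nonunits_iff, mem_nonunits_iff, quad_isUnit_iff hg]

theorem quad_isLocalHom (hg : g ∈ maximalIdeal B) :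
    IsLocalHom (algebraMap B (QuadraticAlgebra B g 0)) := by
  refine ⟨fun a ha => ?_⟩
  rw [quad_isUnit_iff hg] at ha
  simpa using ha

theorem quad_isAdicComplete [IsNoetherianRing B] [IsAdicComplete (maximalIdeal B) B]
    (hg : g ∈ maximalIdeal B) :
    letI := quad_isLocalRing hg
    IsAdicComplete (maximalIdeal (QuadraticAlgebra B g 0)) (QuadraticAlgebra B g 0) := by
  letI := quad_isLocalRing hg
  haveI := quad_isLocalHom hg
  exact IsLocalRing.isAdicComplete_of_module_finite (𝒪 := B) (T := QuadraticAlgebra B g 0)

end QuadLocal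

section QuadLift

variable {B : Type*} [CommRing B] {g : B} {A : Type*} [CommRing A]

/-- The ring homomorphism `B[ω]/(ω² = g) → A` given by `φ : B → A` and a square root of `φ g`. -/
def quadLift (φ : B →+* A) (v : A) (hv : v * v = φ g) : QuadraticAlgebra B g 0 →+* A where
  toFun w := φ w.re + φ w.im * v
  map_one' := by simp
  map_zero' := by simp
  map_add' a b := by simp only [re_add, im_add, map_add]; ring
  map_mul' a b := by
    simp only [re_mul, im_mul, map_add, map_mul, zero_mul, add_zero, map_zero]
    linear_combination (-(φ a.im * φ b.im)) * hv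

@[simp] theorem quadLift_apply (φ : B →+* A) (v : A) (hv : v * v = φ g)
    (w : QuadraticAlgebra B g 0) : quadLift φ v hv w = φ w.re + φ w.im * v := rfl

theorem quadLift_algebraMap (φ : B →+* A) (v : A) (hv : v * v = φ g) (b : B) :
    quadLift φ v hv (algebraMap B _ b) = φ b := by
  simp

theorem quadLift_omega (φ : B →+* A) (v : A) (hv : v * v = φ g) :
    quadLift φ v hv ω = v := by
  simp

theorem quadLift_ext {f₁ f₂ : QuadraticAlgebra B g 0 →+* A}
    (h : ∀ b, f₁ (algebraMap B _ b) = f₂ (algebraMap B _ b)) (hω : f₁ ω = f₂ ω) : f₁ = f₂ := by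
  ext w
  have hw : w = algebraMap B _ w.re + algebraMap B _ w.im * ω := by
    ext <;> simp
  rw [hw, map_add, map_add, map_mul, map_mul, h, h, hω]

end QuadLift

end Fermat.Agent.Ribet.H678
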