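import Fermat.Agent.Ribet.H678.QuadReg

/-!
# The ring `A₀ = O⟦y,z⟧[v]/(v² = c - 4yz)` (helper678)

`O` is a noetherian domain, `λ` a prime element with `λ ∤ 2`, `c ≠ 0` divisible by `λ`.
We show that `A₀` is a noetherian domain in which `(y, z, v)` is a regular sequence.
(For `c = (ζ - ζ⁻¹)²` this is the ring of `2 × 2` matrices `Σ₀ = [[v/2, y], [z, -v/2]]`,
`Σ₀ ≡ 0`, with `det Σ₀ = -c/4`.)
-/

set_option autoImplicit false
set_option linter.unusedSectionVars false

namespace Fermat.Agent.Ribet.H678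

open MvPowerSeries

section PS

variable {O : Type*} [CommRing O]

/-- The element `g = c - 4yz` of `O⟦y,z⟧`. -/
noncomputable def psG (c : O) : MvPowerSeries (Fin 2) O :=
  C c - 4 * X 0 * X 1

theorem constantCoeff_psG (c : O) : constantCoeff (psG c) = c := by
  simp [psG]

theorem span_X_pair_eq :
    Ideal.span {(X 0 : MvPowerSeries (Fin 2) O), X 1} =
      RingHom.ker (constantCoeff (σ := Fin 2) (R := O)) := by
  apply le_antisymm
  · rw [Ideal.span_le]
    rintro f (rfl | rfl) <;> simp [RingHom.mem_ker]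
  · intro f hf
    rw [RingHom.mem_ker] at hf
    have h := mem_span_X_of_constantCoeff_eq_zero f hf
    have hr : Set.range (X : Fin 2 → MvPowerSeries (Fin 2) O) = {X 0, X 1} := by
      ext g
      constructor
      · rintro ⟨i, rfl⟩
        fin_cases i
        · exact Or.inl rfl
        · exact Or.inr rfl
      · rintro (rfl | rfl)
        · exact ⟨0, rfl⟩
        · exact ⟨1, rfl⟩
    rwa [hr] at h

theorem psG_regular [IsDomain O] {c : O} (hc : c ≠ 0) (a : MvPowerSeries (Fin 2) O)
    (h : psG c * a ∈ Ideal.span {(X 0 : MvPowerSeries (Fin 2) O), X 1}) :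
    a ∈ Ideal.span {(X 0 : MvPowerSeries (Fin 2) O), X 1} := by
  rw [span_X_pair_eq, RingHom.mem_ker] at h ⊢
  rw [map_mul, constantCoeff_psG] at h
  exact (mul_eq_zero.1 h).resolve_left hc

theorem X_one_regular_mod_X_zero (a : MvPowerSeries (Fin 2) O)
    (h : X 1 * a ∈ Ideal.span {(X 0 : MvPowerSeries (Fin 2) O)}) :
    a ∈ Ideal.span {(X 0 : MvPowerSeries (Fin 2) O)} := by
  classical
  rw [Ideal.mem_span_singleton, X_dvd_iff] at h ⊢
  intro m hm
  have h1 := h (Finsupp.single 1 1 + m) (by simp [hm])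
  rw [X_def, coeff_add_monomial_mul, one_mul] at h1
  exact h1

theorem X_zero_regular [IsDomain O] (a : MvPowerSeries (Fin 2) O)
    (h : (X 0 : MvPowerSeries (Fin 2) O) * a = 0) : a = 0 := by
  rcases mul_eq_zero.1 h with h0 | h0
  · exfalso
    have := congrArg (coeff (Finsupp.single 0 1)) h0
    simp [coeff_X] at this
  · exact h0

end PS

section Norm

variable {O : Type*} [CommRing O] [IsDomain O] (l : O)

/-- Reduction of coefficients modulo `l`. -/
noncomputable def psRed :
    MvPowerSeries (Fin 2) O →+* MvPowerSeries (Fin 2) (O ⧸ Ideal.span {l}) :=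
  MvPowerSeries.map (Ideal.Quotient.mk (Ideal.span {l}))

omit [IsDomain O] in
theorem psRed_eq_zero_iff (f : MvPowerSeries (Fin 2) O) : psRed l f = 0 ↔ C l ∣ f := by
  classical
  constructor
  · intro h
    have h1 : ∀ e, ∃ q, coeff e f = l * q := by
      intro e
      have := congrArg (coeff e) h
      rw [psRed, coeff_map, map_zero, Ideal.Quotient.eq_zero_iff_mem,
        Ideal.mem_span_singleton] at this
      exact this
    choose q hq using h1
    refine ⟨(show MvPowerSeries (Fin 2) O from q), ?_⟩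
    ext e
    rw [coeff_C_mul, hq e]
    rfl
  · rintro ⟨f', rfl⟩
    rw [map_mul, psRed, map_C]
    have : (Ideal.Quotient.mk (Ideal.span {l})) l = 0 :=
      Ideal.Quotient.eq_zero_iff_mem.2 (Ideal.mem_span_singleton_self l)
    rw [this, map_zero, zero_mul]

variable {l}

omit [IsDomain O] in
theorem isDomain_quot (hl : Prime l) : IsDomain (O ⧸ Ideal.span {l}) := by
  have : (Ideal.span {l}).IsPrime := (Ideal.span_singleton_prime hl.ne_zero).2 hl
  exact Ideal.Quotient.isDomain _

theorem prime_C (hl : Prime l) : Prime (C l : MvPowerSeries (Fin 2) O) := by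
  have := isDomain_quot hl
  refine ⟨?_, ?_, ?_⟩
  · intro h
    have := congrArg constantCoeff h
    simp at this
    exact hl.ne_zero this
  · intro h
    rw [isUnit_iff_constantCoeff] at h
    simp at h
    exact hl.not_isUnit h
  · intro a b hab
    rw [← psRed_eq_zero_iff] at hab ⊢
    rw [← psRed_eq_zero_iff]
    rw [map_mul] at hab
    exact mul_eq_zero.1 hab

/-- Parity argument in characteristic `l`: `a² = -4yz b²` forces `b = 0`. -/
theorem parity_aux {k : Type*} [CommRing k] [IsDomain k] (h2 : (2 : k) ≠ 0)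
    (a b : MvPowerSeries (Fin 2) k) (h : a * a = (-(4 * X 0 * X 1)) * b * b) : b = 0 := by
  by_contra hb
  let e := MvPowerSeries.finSuccEquiv k 1
  have he : e a * e a = PowerSeries.C (-(4 * X 0)) * PowerSeries.X * e b * e b := by
    have h1 := congrArg e h
    rw [map_mul, map_mul, map_mul, map_neg, map_mul, map_mul] at h1
    have hX0 : e (X 0) = PowerSeries.X := finSuccEquiv_X_zero
    have hX1 : e (X 1) = PowerSeries.C (X 0) := finSuccEquiv_X_succ (0 : Fin 1)
    have h4 : e 4 = PowerSeries.C 4 := by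
      simp [map_ofNat]
    rw [hX0, hX1, h4] at h1
    rw [h1]
    simp only [map_neg, map_mul]
    ring
  have hw : (-(4 * X 0) : MvPowerSeries (Fin 1) k) ≠ 0 := by
    intro h0
    have := congrArg (coeff (Finsupp.single 0 1)) h0
    have h4 : (4 : MvPowerSeries (Fin 1) k) = C 4 := by simp [map_ofNat]
    rw [map_neg, h4, coeff_C_mul, coeff_X] at this
    simp at this
    have h44 : (4 : k) = 2 * 2 := by norm_num
    rw [h44] at this
    exact h2 (by simpa using this)
  have hordC : (PowerSeries.C (-(4 * X 0) : MvPowerSeries (Fin 1) k)).order = 0 := by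
    apply le_antisymm
    · have := PowerSeries.order_le (φ := PowerSeries.C (-(4 * X 0) : MvPowerSeries (Fin 1) k)) 0
        (by simpa using hw)
      simpa using this
    · exact bot_le
  have heb : e b ≠ 0 := fun h0 => hb (e.injective (by rw [h0, map_zero]))
  have hord := congrArg PowerSeries.order he
  rw [PowerSeries.order_mul, PowerSeries.order_mul, PowerSeries.order_mul, PowerSeries.order_mul,
    hordC, PowerSeries.order_X, zero_add] at hord
  obtain ⟨m, hm⟩ := ENat.ne_top_iff_exists.1 (fun h => heb (PowerSeries.order_eq_top.1 h))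
  rw [← hm] at hord
  rcases ENat.ne_top_iff_exists.1 (show (e a).order ≠ ⊤ from fun h => by
    rw [h] at hord
    have h1 : (1 + (m : ℕ∞) + m) = ((1 + m + m : ℕ) : ℕ∞) := by push_cast; rfl
    rw [h1] at hord
    simp at hord
    exact ENat.top_ne_natCast _ hord) with ⟨n, hn⟩
  rw [← hn] at hord
  have : n + n = 1 + m + m := by exact_mod_cast hord
  omega

theorem psRed_psG {c : O} (hcl : l ∣ c) : psRed l (psG c) = -(4 * X 0 * X 1) := by
  have hc : (Ideal.Quotient.mk (Ideal.span {l})) c = 0 :=
    Ideal.Quotient.eq_zero_iff_mem.2 (Ideal.mem_span_singleton.2 hcl)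
  rw [psG, map_sub, map_mul, map_mul, psRed, map_C, map_X, map_X, hc, map_zero, zero_sub]
  simp [map_ofNat]

theorem norm_aux (hl : Prime l) (h2 : ¬ l ∣ 2) {c : O} (hcl : l ∣ c) :
    ∀ (n : ℕ) (α β' : MvPowerSeries (Fin 2) O), ¬ C l ∣ β' →
      α * α = psG c * (C l ^ n * β') * (C l ^ n * β') → False := by
  have hdom := isDomain_quot hl
  have h2' : (2 : O ⧸ Ideal.span {l}) ≠ 0 := by
    intro h
    have h' : (Ideal.Quotient.mk (Ideal.span {l})) 2 = 0 := by rw [map_ofNat]; exact h
    rw [Ideal.Quotient.eq_zero_iff_mem, Ideal.mem_span_singleton] at h'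
    exact h2 h'
  intro n
  induction n with
  | zero =>
    intro α β' hβ' h
    rw [pow_zero, one_mul] at h
    have h1 := congrArg (psRed l) h
    rw [map_mul, map_mul, map_mul, psRed_psG hcl] at h1
    have := parity_aux h2' _ _ h1
    exact hβ' ((psRed_eq_zero_iff l β').1 this)
  | succ n ih =>
    intro α β' hβ' h
    have hl0 : psRed l (C l) = 0 := (psRed_eq_zero_iff l _).2 dvd_rfl
    have h1 := congrArg (psRed l) h
    have hz : psRed l (C l ^ (n + 1) * β') = 0 := by
      rw [map_mul, map_pow, hl0, pow_succ, mul_zero, zero_mul]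
    rw [map_mul (psRed l) α α, map_mul (psRed l) (psG c * _) _, hz, mul_zero] at h1
    have h3 : psRed l α = 0 := by
      rcases mul_eq_zero.1 h1 with h | h <;> exact h
    obtain ⟨α₁, rfl⟩ := (psRed_eq_zero_iff l α).1 h3
    apply ih α₁ β' hβ'
    have hC : (C l : MvPowerSeries (Fin 2) O) ≠ 0 := (prime_C hl).ne_zero
    have hCC : (C l * C l : MvPowerSeries (Fin 2) O) ≠ 0 := mul_ne_zero hC hC
    apply mul_left_cancel₀ hCC
    rw [pow_succ] at h
    linear_combination h

theorem psNorm [IsNoetherianRing O] (hl : Prime l) (h2 : ¬ l ∣ 2) {c : O} (hcl : l ∣ c)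
    (α β : MvPowerSeries (Fin 2) O) (h : α * α = psG c * β * β) : β = 0 := by
  by_contra hβ
  have : IsDomain (MvPowerSeries (Fin 2) O) := NoZeroDivisors.to_isDomain _
  obtain ⟨n, β', hβ', rfl⟩ := WfDvdMonoid.max_power_factor hβ (prime_C hl).irreducible
  exact norm_aux hl h2 hcl n α β' hβ' h

end Norm

section Final

variable {O : Type*} [CommRing O] [IsDomain O] [IsNoetherianRing O]

/-- The ring `A₀ = O⟦y,z⟧[v]/(v² = c - 4yz)`. -/
abbrev RingA0 (c : O) : Type _ := QuadraticAlgebra (MvPowerSeries (Fin 2) O) (psG c) 0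

theorem ringA0_isDomain {l c : O} (hl : Prime l) (h2 : ¬ l ∣ 2) (hcl : l ∣ c) :
    IsDomain (RingA0 c) := by
  have : IsDomain (MvPowerSeries (Fin 2) O) := NoZeroDivisors.to_isDomain _
  exact quad_isDomain _ (psNorm hl h2 hcl)

theorem ringA0_isNoetherianRing (c : O) : IsNoetherianRing (RingA0 c) :=
  quad_isNoetherianRing _

/-- The sequence `(y, z, v)` of `A₀`. -/
noncomputable def seqA0 (c : O) : Fin 3 → RingA0 c := quadSeq (psG c) (X 0) (X 1)

theorem seqA0_isRegSeq {c : O} (hc : c ≠ 0) : IsRegSeq (seqA0 c) :=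
  isRegSeq_quadSeq _ _ _ X_zero_regular X_one_regular_mod_X_zero (psG_regular hc)

/-- **`R_χ` is a domain** (model `A₀⟦b,c,u⟧ ⧸ ((b,c,u) ∥ (y,z,v))`). -/
theorem koszul_seqA0_isPrime {l c : O} (hl : Prime l) (h2 : ¬ l ∣ 2) (hcl : l ∣ c) (hc : c ≠ 0) :
    (koszul (seqA0 c)).IsPrime := by
  have := ringA0_isDomain hl h2 hcl
  have := ringA0_isNoetherianRing c
  exact koszul_isPrime _ (seqA0_isRegSeq hc)

end Final
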