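import Fermat.Agent.Ribet.H678.LinearType

/-!
# The quadratic algebra `B[ω]/(ω² = g)` and the regular sequence `(y, z, ω)` (helper678)

For a commutative ring `B`, `g y z : B`, we consider `A₀ = QuadraticAlgebra B g 0`
(`ω² = g`) and show that `(y, z, ω)` is a regular sequence in `A₀` as soon as
`y` is a nonzerodivisor of `B`, `z` is a nonzerodivisor modulo `y` and `g` is a nonzerodivisor
modulo `(y, z)`.  We also give the norm criterion for `A₀` to be a domain.
-/

set_option autoImplicit false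

namespace Fermat.Agent.Ribet.H678

open QuadraticAlgebra

section Quad

variable {B : Type*} [CommRing B] (g : B)

/-- The ideal of `B[ω]` of elements both of whose components lie in `𝔟`. -/
def quadIdeal (𝔟 : Ideal B) : Ideal (QuadraticAlgebra B g 0) where
  carrier := {w | w.re ∈ 𝔟 ∧ w.im ∈ 𝔟}
  add_mem' := fun {a b} ha hb => ⟨by rw [re_add]; exact 𝔟.add_mem ha.1 hb.1,
    by rw [im_add]; exact 𝔟.add_mem ha.2 hb.2⟩
  zero_mem' := ⟨by simp, by simp⟩
  smul_mem' := fun c w hw => by
    refine ⟨?_, ?_⟩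
    · rw [smul_eq_mul, re_mul]
      exact 𝔟.add_mem (𝔟.mul_mem_left _ hw.1) (𝔟.mul_mem_left _ hw.2)
    · rw [smul_eq_mul, im_mul]
      exact 𝔟.add_mem (𝔟.add_mem (𝔟.mul_mem_left _ hw.2) (𝔟.mul_mem_left _ hw.1))
        (𝔟.mul_mem_left _ hw.2)

theorem mem_quadIdeal {𝔟 : Ideal B} {w : QuadraticAlgebra B g 0} :
    w ∈ quadIdeal g 𝔟 ↔ w.re ∈ 𝔟 ∧ w.im ∈ 𝔟 := Iff.rfl

theorem map_algebraMap_eq_quadIdeal (𝔟 : Ideal B) :
    𝔟.map (algebraMap B (QuadraticAlgebra B g 0)) = quadIdeal g 𝔟 := by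
  apply le_antisymm
  · rw [Ideal.map_le_iff_le_comap]
    intro b hb
    rw [Ideal.mem_comap, mem_quadIdeal]
    exact ⟨by simpa using hb, by simp⟩
  · intro w hw
    have h : w = algebraMap B _ w.re + algebraMap B _ w.im * ω := by
      ext <;> simp
    rw [h]
    exact Ideal.add_mem _ (Ideal.mem_map_of_mem _ hw.1)
      (Ideal.mul_mem_right _ _ (Ideal.mem_map_of_mem _ hw.2))

/-- The sequence `(y, z, ω)` in `B[ω]`. -/
def quadSeq (y z : B) : Fin 3 → QuadraticAlgebra B g 0 :=
  ![algebraMap B _ y, algebraMap B _ z, ω]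

theorem ltA_quadSeq_zero (y z : B) : ltA (quadSeq g y z) 0 = ⊥ := by
  simp [ltA]

theorem ltA_quadSeq_one (y z : B) :
    ltA (quadSeq g y z) 1 = quadIdeal g (Ideal.span {y}) := by
  have h : {i : Fin 3 | (i : ℕ) < 1} = {0} := by
    ext i; fin_cases i <;> simp
  rw [ltA, h, Set.image_singleton, ← map_algebraMap_eq_quadIdeal, Ideal.map_span,
    Set.image_singleton]
  rfl

theorem ltA_quadSeq_two (y z : B) :
    ltA (quadSeq g y z) 2 = quadIdeal g (Ideal.span {y, z}) := by
  have h : {i : Fin 3 | (i : ℕ) < 2} = {0, 1} := by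
    ext i; fin_cases i <;> simp
  rw [ltA, h, Set.image_pair, ← map_algebraMap_eq_quadIdeal, Ideal.map_span, Set.image_pair]
  rfl

/-- `(y, z, ω)` is a regular sequence in `B[ω]/(ω² = g)`. -/
theorem isRegSeq_quadSeq (y z : B) (hy : ∀ a, y * a = 0 → a = 0)
    (hz : ∀ a, z * a ∈ Ideal.span {y} → a ∈ Ideal.span {y})
    (hg : ∀ a, g * a ∈ Ideal.span {y, z} → a ∈ Ideal.span {y, z}) :
    IsRegSeq (quadSeq g y z) := by
  intro i a
  fin_cases i
  · change algebraMap B _ y * a ∈ ltA (quadSeq g y z) 0 → a ∈ ltA (quadSeq g y z) 0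
    rw [ltA_quadSeq_zero, Ideal.mem_bot, Ideal.mem_bot]
    intro h
    have h1 := congrArg QuadraticAlgebra.re h
    have h2 := congrArg QuadraticAlgebra.im h
    simp at h1 h2
    ext
    · exact hy _ h1
    · exact hy _ h2
  · change algebraMap B _ z * a ∈ ltA (quadSeq g y z) 1 → a ∈ ltA (quadSeq g y z) 1
    rw [ltA_quadSeq_one, mem_quadIdeal, mem_quadIdeal]
    intro h
    simp at h
    exact ⟨hz _ h.1, hz _ h.2⟩
  · change ω * a ∈ ltA (quadSeq g y z) 2 → a ∈ ltA (quadSeq g y z) 2
    rw [ltA_quadSeq_two, mem_quadIdeal, mem_quadIdeal]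
    intro h
    simp at h
    exact ⟨h.2, hg _ h.1⟩

/-- Norm criterion: `B[ω]/(ω² = g)` is a domain if `B` is and `α² = g β²` forces `β = 0`. -/
theorem quad_isDomain [IsDomain B] (hnorm : ∀ α β : B, α * α = g * β * β → β = 0) :
    IsDomain (QuadraticAlgebra B g 0) := by
  have key : ∀ w : QuadraticAlgebra B g 0, w ≠ 0 → w ∈ nonZeroDivisors (QuadraticAlgebra B g 0) := by
    intro w hw
    rw [← norm_mem_nonZeroDivisors_iff]
    apply mem_nonZeroDivisors_of_ne_zero
    intro h0
    rw [norm_def] at h0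
    have h1 : w.re * w.re = g * w.im * w.im := by
      have : w.re * w.re + 0 * w.re * w.im - g * w.im * w.im = 0 := h0
      linear_combination this
    have him : w.im = 0 := hnorm _ _ h1
    have hre : w.re = 0 := by
      rw [him] at h1
      simpa using h1
    exact hw (by ext <;> simp [him, hre])
  have : NoZeroDivisors (QuadraticAlgebra B g 0) := by
    refine ⟨fun {a b} h => ?_⟩
    by_cases ha : a = 0
    · exact Or.inl ha
    · right
      have := key a ha
      exact (mem_nonZeroDivisors_iff_right.1 this) b (by rw [mul_comm]; exact h)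
  exact NoZeroDivisors.to_isDomain _

theorem quad_isNoetherianRing [IsNoetherianRing B] :
    IsNoetherianRing (QuadraticAlgebra B g 0) :=
  Algebra.FiniteType.isNoetherianRing B _

end Quad

end Fermat.Agent.Ribet.H678
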