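import Fermat.Agent.Ribet.H678.RChiGen

/-!
# `R_χ` is a domain, in tower-ready form (helper678)

A *good embedding* of `(O, λ)` is an injective ring homomorphism of `O` into a noetherian domain
in which the image of `λ` is a prime element.  If `(O, λ)` has a good embedding, `λ ∣ c`,
`c ≠ 0`, then `R_χ` over `O` is a domain and `(R_χ, λ)` has a good embedding again.  So the
construction can be iterated (several pivots) and mixed with power series variables.
-/

set_option autoImplicit false
set_option linter.unusedSectionVars false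
set_option linter.style.haveILetI false
set_option linter.unusedSimpArgs false

universe u

namespace Fermat.Agent.Ribet.H678

open MvPowerSeries IsLocalRing QuadraticAlgebra Fermat.Agent.S53.H596

section PrimeC

variable {σ : Type*} {R : Type*} [CommRing R]

theorem mv_C_dvd_iff (l : R) (f : MvPowerSeries σ R) :
    (C l : MvPowerSeries σ R) ∣ f ↔ ∀ e, l ∣ coeff e f := by
  classical
  constructor
  · rintro ⟨g, rfl⟩ e
    exact ⟨coeff e g, by rw [coeff_C_mul]⟩
  · intro h
    choose q hq using h
    refine ⟨(show MvPowerSeries σ R from q), ?_⟩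
    ext e
    rw [coeff_C_mul, hq e]
    rfl

theorem mv_map_mk_eq_zero_iff (l : R) (f : MvPowerSeries σ R) :
    MvPowerSeries.map (Ideal.Quotient.mk (Ideal.span {l})) f = 0 ↔
      (C l : MvPowerSeries σ R) ∣ f := by
  rw [mv_C_dvd_iff]
  constructor
  · intro h e
    have := congrArg (coeff e) h
    rwa [coeff_map, map_zero, Ideal.Quotient.eq_zero_iff_mem, Ideal.mem_span_singleton] at this
  · intro h
    ext e
    rw [coeff_map, map_zero, Ideal.Quotient.eq_zero_iff_mem, Ideal.mem_span_singleton]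
    exact h e

/-- a prime element of a domain stays prime in the power series ring -/
theorem prime_C_mv [IsDomain R] {l : R} (hl : Prime l) : Prime (C l : MvPowerSeries σ R) := by
  haveI := isDomain_quot hl
  refine ⟨?_, ?_, ?_⟩
  · intro h
    have := congrArg constantCoeff h
    rw [constantCoeff_C, map_zero] at this
    exact hl.ne_zero this
  · intro h
    rw [MvPowerSeries.isUnit_iff_constantCoeff, constantCoeff_C] at h
    exact hl.not_isUnit h
  · intro a b hab
    rw [← mv_map_mk_eq_zero_iff] at hab ⊢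
    rw [← mv_map_mk_eq_zero_iff]
    rw [map_mul] at hab
    exact mul_eq_zero.1 hab

theorem mv_map_injective {S : Type*} [CommRing S] (ι : R →+* S) (hι : Function.Injective ι) :
    Function.Injective (MvPowerSeries.map (σ := σ) ι) := by
  intro f g h
  ext e
  have := congrArg (coeff e) h
  rw [coeff_map, coeff_map] at this
  exact hι this

end PrimeC

section QuadPrime

variable {B : Type*} [CommRing B] {g : B}

theorem quad_dvd_iff (L : B) (w : QuadraticAlgebra B g 0) :
    algebraMap B (QuadraticAlgebra B g 0) L ∣ w ↔ L ∣ w.re ∧ L ∣ w.im := by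
  constructor
  · rintro ⟨w', rfl⟩
    refine ⟨⟨w'.re, ?_⟩, ⟨w'.im, ?_⟩⟩
    · simp
    · simp
  · rintro ⟨⟨a, ha⟩, ⟨b, hb⟩⟩
    refine ⟨⟨a, b⟩, ?_⟩
    ext
    · simp [ha]
    · simp [hb]

/-- a prime `L` of `B` stays prime in `B[ω]/(ω² = g)` if `g` is not a square modulo `L` in the
strong sense `L ∣ α² - g β² → L ∣ β`. -/
theorem quad_prime [IsDomain B] {L : B} (hL : Prime L)
    (hnorm : ∀ α β : B, L ∣ α * α - g * β * β → L ∣ β) :
    Prime (algebraMap B (QuadraticAlgebra B g 0) L) := by
  refine ⟨?_, ?_, ?_⟩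
  · intro h
    have := congrArg QuadraticAlgebra.re h
    simp at this
    exact hL.ne_zero this
  · intro h
    obtain ⟨w, hw⟩ := h.exists_right_inv
    have := congrArg QuadraticAlgebra.re hw
    simp at this
    exact hL.not_isUnit (IsUnit.of_mul_eq_one _ this)
  · intro w₁ w₂ h
    rw [quad_dvd_iff] at h
    obtain ⟨hr, hi⟩ := h
    rw [re_mul] at hr
    rw [im_mul] at hi
    simp only [zero_mul, add_zero] at hi
    have hN2 : L ∣ (w₁.re * w₁.re - g * w₁.im * w₁.im) * w₂.re := by
      have : (w₁.re * w₁.re - g * w₁.im * w₁.im) * w₂.re =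
          w₁.re * (w₁.re * w₂.re + g * w₁.im * w₂.im) -
            g * w₁.im * (w₁.re * w₂.im + w₁.im * w₂.re) := by ring
      rw [this]
      exact dvd_sub (Dvd.dvd.mul_left hr _) (Dvd.dvd.mul_left hi _)
    have hN3 : L ∣ (w₁.re * w₁.re - g * w₁.im * w₁.im) * w₂.im := by
      have : (w₁.re * w₁.re - g * w₁.im * w₁.im) * w₂.im =
          w₁.re * (w₁.re * w₂.im + w₁.im * w₂.re) -
            w₁.im * (w₁.re * w₂.re + g * w₁.im * w₂.im) := by ring
      rw [this]
      exact dvd_sub (Dvd.dvd.mul_left hi _) (Dvd.dvd.mul_left hr _)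
    by_cases hN : L ∣ w₁.re * w₁.re - g * w₁.im * w₁.im
    · left
      have hb := hnorm _ _ hN
      have ha : L ∣ w₁.re * w₁.re := by
        have := dvd_add hN (Dvd.dvd.mul_left hb (g * w₁.im))
        have e : w₁.re * w₁.re - g * w₁.im * w₁.im + g * w₁.im * w₁.im = w₁.re * w₁.re := by ring
        rwa [e] at this
      rw [quad_dvd_iff]
      exact ⟨(hL.dvd_or_dvd ha).elim id id, hb⟩
    · right
      rw [quad_dvd_iff]
      exact ⟨(hL.dvd_or_dvd hN2).resolve_left hN, (hL.dvd_or_dvd hN3).resolve_left hN⟩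

end QuadPrime

section NormMod

variable {O : Type*} [CommRing O] [IsDomain O]

/-- `c - 4yz` is not a square modulo a prime `l ∣ c`, `l ∤ 2`. -/
theorem psNorm_mod {l c : O} (hl : Prime l) (h2 : ¬ l ∣ 2) (hcl : l ∣ c)
    (α β : MvPowerSeries (Fin 2) O) (h : C l ∣ α * α - psG c * β * β) : C l ∣ β := by
  have hdom := isDomain_quot hl
  have h2' : (2 : O ⧸ Ideal.span {l}) ≠ 0 := by
    intro h
    have h' : (Ideal.Quotient.mk (Ideal.span {l})) 2 = 0 := by rw [map_ofNat]; exact h
    rw [Ideal.Quotient.eq_zero_iff_mem, Ideal.mem_span_singleton] at h'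
    exact h2 h'
  rw [← psRed_eq_zero_iff] at h ⊢
  rw [map_sub, map_mul, map_mul, map_mul, psRed_psG hcl, sub_eq_zero] at h
  exact parity_aux h2' _ _ h

/-- **`λ` is prime in `E = O⟦y,z⟧[v]/(v² = c - 4yz)`.** -/
theorem ringA0_prime {l c : O} (hl : Prime l) (h2 : ¬ l ∣ 2) (hcl : l ∣ c) :
    Prime (algebraMap (MvPowerSeries (Fin 2) O) (RingA0 c) (C l)) := by
  haveI : IsDomain (MvPowerSeries (Fin 2) O) := NoZeroDivisors.to_isDomain _
  exact quad_prime (prime_C_mv hl) (psNorm_mod hl h2 hcl)

end NormMod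

section QuadMap

variable {O O' : Type*} [CommRing O] [CommRing O'] (ι : O →+* O')

theorem map_psG (c : O) : MvPowerSeries.map ι (psG c) = psG (ι c) := by
  simp [psG, map_ofNat]

/-- coefficientwise map `E_O → E_{O'}` -/
noncomputable def quadMap (c : O) : RingA0 c →+* RingA0 (ι c) :=
  quadLift ((algebraMap (MvPowerSeries (Fin 2) O') (RingA0 (ι c))).comp (MvPowerSeries.map ι))
    ω (by
      rw [RingHom.comp_apply, map_psG]
      ext <;> simp)

theorem quadMap_re (c : O) (w : RingA0 c) : (quadMap ι c w).re = MvPowerSeries.map ι w.re := by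
  simp [quadMap]

theorem quadMap_im (c : O) (w : RingA0 c) : (quadMap ι c w).im = MvPowerSeries.map ι w.im := by
  simp [quadMap]

theorem quadMap_algebraMap (c : O) (f : MvPowerSeries (Fin 2) O) :
    quadMap ι c (algebraMap _ (RingA0 c) f) = algebraMap _ (RingA0 (ι c)) (MvPowerSeries.map ι f) :=
  quadLift_algebraMap _ _ _ f

theorem quadMap_injective (hι : Function.Injective ι) (c : O) :
    Function.Injective (quadMap ι c) := by
  intro w₁ w₂ h
  have hr := congrArg QuadraticAlgebra.re h
  have hi := congrArg QuadraticAlgebra.im h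
  rw [quadMap_re, quadMap_re] at hr
  rw [quadMap_im, quadMap_im] at hi
  exact QuadraticAlgebra.ext (mv_map_injective ι hι hr) (mv_map_injective ι hι hi)

end QuadMap

section Good

/-- `O` embeds into a noetherian domain in which the image of `lam` is a prime element. -/
def GoodEmb (O : Type u) [CommRing O] (lam : O) : Prop :=
  ∃ (O' : Type u) (_ : CommRing O') (_ : IsDomain O') (_ : IsNoetherianRing O') (ι : O →+* O'),
    Function.Injective ι ∧ Prime (ι lam)

variable {O : Type u} [CommRing O]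

theorem GoodEmb.of_prime [IsDomain O] [IsNoetherianRing O] {lam : O} (h : Prime lam) :
    GoodEmb O lam :=
  ⟨O, inferInstance, inferInstance, inferInstance, RingHom.id O, Function.injective_id, h⟩

theorem GoodEmb.isDomain {lam : O} (h : GoodEmb O lam) : IsDomain O := by
  obtain ⟨O', _, _, _, ι, hι, -⟩ := h
  exact Function.Injective.isDomain ι hι

/-- power series variables preserve good embeddings -/
theorem GoodEmb.mvPowerSeries {lam : O} (h : GoodEmb O lam) (σ : Type) [Finite σ] :
    GoodEmb (MvPowerSeries σ O) (C lam) := by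
  obtain ⟨O', _, _, _, ι, hι, hp⟩ := h
  refine ⟨MvPowerSeries σ O', inferInstance, NoZeroDivisors.to_isDomain _, inferInstance,
    MvPowerSeries.map ι, mv_map_injective ι hι, ?_⟩
  rw [map_C]
  exact prime_C_mv hp

end Good

section Step

variable {O : Type u} [CommRing O] [IsLocalRing O] [IsNoetherianRing O] (P : ChiDatum O)

theorem chiDatum_not_dvd_two {O' : Type*} [CommRing O'] (ι : O →+* O') {l : O'} (hl : Prime l)
    (Q : ChiDatum O) : ¬ l ∣ 2 := by
  intro h
  have h1 : (2 : O') * ι Q.half = 1 := by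
    have := congrArg ι Q.two_half
    rwa [map_mul, map_ofNat, map_one] at this
  exact hl.not_isUnit (isUnit_of_dvd_one (h1 ▸ Dvd.dvd.mul_right h _))

theorem chiE_isDomain_of_goodEmb {lam : O} (h : GoodEmb O lam) (hlc : lam ∣ P.c) :
    IsDomain (ChiE P) := by
  obtain ⟨O', _, _, _, ι, hι, hp⟩ := h
  haveI : IsDomain (RingA0 (ι P.c)) :=
    ringA0_isDomain hp (chiDatum_not_dvd_two ι hp P) (map_dvd ι hlc)
  exact Function.Injective.isDomain (quadMap ι P.c) (quadMap_injective ι hι P.c)

theorem chiSeq_isRegSeq_of_goodEmb {lam : O} (h : GoodEmb O lam) (hc : P.c ≠ 0) :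
    IsRegSeq (chiSeq P) := by
  haveI := h.isDomain
  exact seqA0_isRegSeq hc

/-- **`R_χ` is a domain** as soon as `(O, λ)` has a good embedding, `λ ∣ c`, `c ≠ 0`. -/
theorem rChi_isDomain_of_goodEmb {lam : O} (h : GoodEmb O lam) (hlc : lam ∣ P.c) (hc : P.c ≠ 0) :
    IsDomain (RChi P) := by
  haveI := chiE_isDomain_of_goodEmb P h hlc
  haveI : (chiIdeal P).IsPrime := koszul_isPrime _ (chiSeq_isRegSeq_of_goodEmb P h hc)
  exact Ideal.Quotient.isDomain _

/-- the embedding `R_χ → E⟦t⟧` -/
noncomputable def RChi.toPS : RChi P →+* PowerSeries (ChiE P) :=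
  Ideal.Quotient.lift (chiIdeal P) (ltPsi (chiSeq P)).toRingHom
    (fun _ ha => koszul_le_ker (chiSeq P) ha)

theorem RChi.toPS_mk (q : ChiQ P) :
    RChi.toPS P (Ideal.Quotient.mk _ q) = ltPsi (chiSeq P) q := rfl

theorem RChi.toPS_injective (hreg : IsRegSeq (chiSeq P)) : Function.Injective (RChi.toPS P) := by
  rw [injective_iff_map_eq_zero]
  intro r hr
  obtain ⟨q, rfl⟩ := Ideal.Quotient.mk_surjective r
  rw [RChi.toPS_mk] at hr
  have : q ∈ RingHom.ker (ltPsi (chiSeq P)) := hr
  rw [ker_ltPsi _ hreg] at this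
  exact Ideal.Quotient.eq_zero_iff_mem.2 this

/-- **Tower step**: `(R_χ, λ)` has a good embedding as soon as `(O, λ)` has one. -/
theorem GoodEmb.rChi {lam : O} (h : GoodEmb O lam) (hlc : lam ∣ P.c) (hc : P.c ≠ 0) :
    GoodEmb (RChi P) (algebraMap O (RChi P) lam) := by
  have hreg := chiSeq_isRegSeq_of_goodEmb P h hc
  obtain ⟨O', _, _, _, ι, hι, hp⟩ := h
  have h2 := chiDatum_not_dvd_two ι hp P
  haveI : IsDomain (RingA0 (ι P.c)) := ringA0_isDomain hp h2 (map_dvd ι hlc)
  haveI : IsNoetherianRing (RingA0 (ι P.c)) := ringA0_isNoetherianRing _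
  refine ⟨PowerSeries (RingA0 (ι P.c)), inferInstance, inferInstance, inferInstance,
    (PowerSeries.map (quadMap ι P.c)).comp (RChi.toPS P),
    (PowerSeries.map_injective _ (quadMap_injective ι hι P.c)).comp (RChi.toPS_injective P hreg),
    ?_⟩
  rw [RingHom.comp_apply, rChi_algebraMap, RChi.toPS_mk, ltPsi_C, PowerSeries.map_C,
    quadMap_algebraMap, map_C]
  exact prime_C_mv (σ := Unit) (ringA0_prime hp h2 (map_dvd ι hlc))

end Step

end Fermat.Agent.Ribet.H678
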