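import Fermat.Agent.Ribet.H678.RChiLift

/-!
# Generators of the maximal ideal of `R_χ`, presentation, uniqueness of lifts (helper678)
-/

set_option autoImplicit false
set_option linter.unusedSectionVars false
set_option linter.style.haveILetI false
set_option linter.unusedSimpArgs false

namespace Fermat.Agent.Ribet.H678

open MvPowerSeries IsLocalRing Fermat.Agent.S53.H596

section Gen

variable {O : Type*} [CommRing O] [IsLocalRing O] (P : ChiDatum O)

theorem rChi_mk_isLocalHom : IsLocalHom (Ideal.Quotient.mk (chiIdeal P)) :=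
  isLocalHom_quotient_mk _ (chiIdeal_ne_top P)

theorem rChi_mk_mem_maximalIdeal {q : ChiQ P} (hq : q ∈ maximalIdeal (ChiQ P)) :
    Ideal.Quotient.mk (chiIdeal P) q ∈ maximalIdeal (RChi P) := by
  haveI := rChi_mk_isLocalHom P
  intro hu
  exact hq (isUnit_of_map_unit (Ideal.Quotient.mk (chiIdeal P)) q hu)

theorem rChi_mem_maximalIdeal_of_mk {q : ChiQ P}
    (hq : Ideal.Quotient.mk (chiIdeal P) q ∈ maximalIdeal (RChi P)) :
    q ∈ maximalIdeal (ChiQ P) := by
  intro hu
  exact hq (hu.map _)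

theorem chiE_mem_maximalIdeal {e : ChiE P} :
    e ∈ maximalIdeal (ChiE P) ↔ e.re ∈ maximalIdeal (MvPowerSeries (Fin 2) O) :=
  quad_mem_maximalIdeal (psG_mem_maximalIdeal P) e

theorem chiE_algebraMap_mem {f : MvPowerSeries (Fin 2) O}
    (hf : f ∈ maximalIdeal (MvPowerSeries (Fin 2) O)) :
    algebraMap (MvPowerSeries (Fin 2) O) (ChiE P) f ∈ maximalIdeal (ChiE P) := by
  rw [chiE_mem_maximalIdeal]
  simpa using hf

theorem chiE_omega_mem : (QuadraticAlgebra.omega : ChiE P) ∈ maximalIdeal (ChiE P) := by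
  rw [chiE_mem_maximalIdeal]
  simp

theorem RChi.y_mem : RChi.y P ∈ maximalIdeal (RChi P) :=
  rChi_mk_mem_maximalIdeal P (C_mem_maximalIdeal_mvPowerSeries
    (chiE_algebraMap_mem P (X_mem_maximalIdeal_mvPowerSeries _)))

theorem RChi.z_mem : RChi.z P ∈ maximalIdeal (RChi P) :=
  rChi_mk_mem_maximalIdeal P (C_mem_maximalIdeal_mvPowerSeries
    (chiE_algebraMap_mem P (X_mem_maximalIdeal_mvPowerSeries _)))

theorem RChi.v_mem : RChi.v P ∈ maximalIdeal (RChi P) :=
  rChi_mk_mem_maximalIdeal P (C_mem_maximalIdeal_mvPowerSeries (chiE_omega_mem P))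

theorem RChi.b_mem : RChi.b P ∈ maximalIdeal (RChi P) :=
  rChi_mk_mem_maximalIdeal P (X_mem_maximalIdeal_mvPowerSeries _)

theorem RChi.c_mem : RChi.c P ∈ maximalIdeal (RChi P) :=
  rChi_mk_mem_maximalIdeal P (X_mem_maximalIdeal_mvPowerSeries _)

theorem RChi.u_mem : RChi.u P ∈ maximalIdeal (RChi P) :=
  rChi_mk_mem_maximalIdeal P (X_mem_maximalIdeal_mvPowerSeries _)

/-- the six coordinates `(y, z, v, b, c, u)` -/
noncomputable def RChi.coord : Fin 6 → RChi P :=
  ![RChi.y P, RChi.z P, RChi.v P, RChi.b P, RChi.c P, RChi.u P]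

theorem RChi.coord_mem (i : Fin 6) : RChi.coord P i ∈ maximalIdeal (RChi P) := by
  fin_cases i
  · exact RChi.y_mem P
  · exact RChi.z_mem P
  · exact RChi.v_mem P
  · exact RChi.b_mem P
  · exact RChi.c_mem P
  · exact RChi.u_mem P

instance rChi_isLocalHom : IsLocalHom (algebraMap O (RChi P)) := by
  refine ⟨fun r hr => ?_⟩
  rw [rChi_algebraMap] at hr
  haveI := rChi_mk_isLocalHom P
  have h1 := isUnit_of_map_unit (Ideal.Quotient.mk (chiIdeal P)) _ hr
  rw [MvPowerSeries.isUnit_iff_constantCoeff, constantCoeff_C,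
    quad_isUnit_iff (psG_mem_maximalIdeal P)] at h1
  have h2 : IsUnit (C r : MvPowerSeries (Fin 2) O) := by simpa using h1
  rw [MvPowerSeries.isUnit_iff_constantCoeff, constantCoeff_C] at h2
  exact h2

theorem rChi_algebraMap_mem {r : O} (hr : r ∈ maximalIdeal O) :
    algebraMap O (RChi P) r ∈ maximalIdeal (RChi P) := by
  intro hu
  exact hr (isUnit_of_map_unit (algebraMap O (RChi P)) r hu)

/-- the ideal generated by `𝔪_O` and the six coordinates -/
noncomputable def RChi.genIdeal : Ideal (RChi P) :=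
  Ideal.map (algebraMap O (RChi P)) (maximalIdeal O) ⊔ Ideal.span (Set.range (RChi.coord P))

theorem RChi.coord_mem_genIdeal (i : Fin 6) : RChi.coord P i ∈ RChi.genIdeal P :=
  Ideal.mem_sup_right (Ideal.subset_span ⟨i, rfl⟩)

theorem RChi.ofB_mem_genIdeal {f : MvPowerSeries (Fin 2) O}
    (hf : f ∈ maximalIdeal (MvPowerSeries (Fin 2) O)) :
    Ideal.Quotient.mk (chiIdeal P) (C (algebraMap (MvPowerSeries (Fin 2) O) (ChiE P) f)) ∈
      RChi.genIdeal P := by
  have hle : maximalIdeal (MvPowerSeries (Fin 2) O) ≤ (RChi.genIdeal P).comap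
      ((Ideal.Quotient.mk (chiIdeal P)).comp ((C : ChiE P →+* ChiQ P).comp
        (algebraMap (MvPowerSeries (Fin 2) O) (ChiE P)))) := by
    rw [maximalIdeal_mvPowerSeries_eq_sup]
    refine sup_le ?_ ?_
    · rw [Ideal.map_le_iff_le_comap]
      intro r hr
      rw [Ideal.mem_comap, Ideal.mem_comap, RingHom.comp_apply, RingHom.comp_apply,
        ← rChi_algebraMap]
      exact Ideal.mem_sup_left (Ideal.mem_map_of_mem _ hr)
    · rw [Ideal.span_le]
      rintro _ ⟨i, rfl⟩
      rw [SetLike.mem_coe, Ideal.mem_comap, RingHom.comp_apply, RingHom.comp_apply]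
      fin_cases i
      · exact RChi.coord_mem_genIdeal P 0
      · exact RChi.coord_mem_genIdeal P 1
  exact hle hf

theorem RChi.ofE_mem_genIdeal {e : ChiE P} (he : e ∈ maximalIdeal (ChiE P)) :
    Ideal.Quotient.mk (chiIdeal P) (C e) ∈ RChi.genIdeal P := by
  have hw : e = algebraMap (MvPowerSeries (Fin 2) O) (ChiE P) e.re +
      algebraMap (MvPowerSeries (Fin 2) O) (ChiE P) e.im * QuadraticAlgebra.omega := by
    ext <;> simp
  rw [hw, map_add, map_add, map_mul, map_mul]
  refine Ideal.add_mem _ (RChi.ofB_mem_genIdeal P ((chiE_mem_maximalIdeal P).1 he)) ?_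
  exact Ideal.mul_mem_left _ _ (RChi.coord_mem_genIdeal P 2)

/-- **The maximal ideal of `R_χ` is generated by `𝔪_O` and the six coordinates.** -/
theorem rChi_maximalIdeal_eq :
    Ideal.map (algebraMap O (RChi P)) (maximalIdeal O) ⊔ Ideal.span (Set.range (RChi.coord P)) =
      maximalIdeal (RChi P) := by
  apply le_antisymm
  · refine sup_le ?_ ?_
    · rw [Ideal.map_le_iff_le_comap]
      intro r hr
      exact rChi_algebraMap_mem P hr
    · rw [Ideal.span_le]
      rintro _ ⟨i, rfl⟩
      exact RChi.coord_mem P i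
  · intro r hr
    obtain ⟨q, rfl⟩ := Ideal.Quotient.mk_surjective r
    have hq := rChi_mem_maximalIdeal_of_mk P hr
    have hle : maximalIdeal (ChiQ P) ≤ (RChi.genIdeal P).comap (Ideal.Quotient.mk (chiIdeal P)) := by
      rw [maximalIdeal_mvPowerSeries_eq_sup]
      refine sup_le ?_ ?_
      · rw [Ideal.map_le_iff_le_comap]
        intro e he
        exact RChi.ofE_mem_genIdeal P he
      · rw [Ideal.span_le]
        rintro _ ⟨i, rfl⟩
        rw [SetLike.mem_coe, Ideal.mem_comap]
        fin_cases i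
        · exact RChi.coord_mem_genIdeal P 3
        · exact RChi.coord_mem_genIdeal P 4
        · exact RChi.coord_mem_genIdeal P 5
    exact hle hq

theorem rChi_residue_surjective :
    Function.Surjective (IsLocalRing.residue (RChi P) ∘ algebraMap O (RChi P)) := by
  intro x
  obtain ⟨r, rfl⟩ := IsLocalRing.residue_surjective x
  obtain ⟨q, rfl⟩ := Ideal.Quotient.mk_surjective r
  refine ⟨constantCoeff ((constantCoeff q).re), ?_⟩
  rw [Function.comp_apply, ← sub_eq_zero, ← map_sub, IsLocalRing.residue_eq_zero_iff,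
    rChi_algebraMap, ← map_sub]
  apply rChi_mk_mem_maximalIdeal
  rw [maximalIdeal_mvPowerSeries_eq, mem_constIdeal_iff, map_sub, constantCoeff_C,
    chiE_mem_maximalIdeal, QuadraticAlgebra.re_sub]
  rw [maximalIdeal_mvPowerSeries_eq, mem_constIdeal_iff]
  simp

end Gen

section Present

variable {O : Type*} [CommRing O] [IsLocalRing O] [IsNoetherianRing O]
  [IsAdicComplete (maximalIdeal O) O] (P : ChiDatum O)

/-- `R_χ` is a quotient of `O⟦X₁,…,X_d⟧` as soon as the images of the variables and `𝔪_O`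
generate the maximal ideal. -/
theorem rChi_exists_surjective {d : ℕ} (x : Fin d → RChi P)
    (hx : ∀ i, x i ∈ maximalIdeal (RChi P))
    (hgen : ∀ i, RChi.coord P i ∈
      Ideal.map (algebraMap O (RChi P)) (maximalIdeal O) ⊔ Ideal.span (Set.range x)) :
    ∃ φ : MvPowerSeries (Fin d) O →ₐ[O] RChi P,
      Function.Surjective φ ∧ ∀ i, φ (MvPowerSeries.X i) = x i := by
  apply exists_surjective_algHom_of_generators (rChi_residue_surjective P) x
  apply le_antisymm
  · refine sup_le ?_ ?_
    · rw [Ideal.map_le_iff_le_comap]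
      intro r hr
      exact rChi_algebraMap_mem P hr
    · rw [Ideal.span_le]
      rintro _ ⟨i, rfl⟩
      exact hx i
  · rw [← rChi_maximalIdeal_eq]
    refine sup_le le_sup_left ?_
    rw [Ideal.span_le]
    rintro _ ⟨i, rfl⟩
    exact hgen i

/-- the presentation `O⟦X₁,…,X₆⟧ ↠ R_χ` by the six coordinates -/
theorem rChi_exists_surjective_coord :
    ∃ φ : MvPowerSeries (Fin 6) O →ₐ[O] RChi P,
      Function.Surjective φ ∧ ∀ i, φ (MvPowerSeries.X i) = RChi.coord P i :=
  rChi_exists_surjective P (RChi.coord P) (RChi.coord_mem P)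
    (fun i => Ideal.mem_sup_right (Ideal.subset_span ⟨i, rfl⟩))

/-- **Uniqueness of lifts**: two `O`-algebra maps out of `R_χ` into a separated local ring which
agree on the six coordinates are equal. -/
theorem rChi_algHom_ext {A : Type*} [CommRing A] [Algebra O A] [IsLocalRing A]
    [IsHausdorff (maximalIdeal A) A] {f₁ f₂ : RChi P →ₐ[O] A}
    (hm : ∀ i, f₁ (RChi.coord P i) ∈ maximalIdeal A)
    (h : ∀ i, f₁ (RChi.coord P i) = f₂ (RChi.coord P i)) : f₁ = f₂ := by
  obtain ⟨φ, hφ, hφX⟩ := rChi_exists_surjective_coord P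
  have h1 : f₁.comp φ = f₂.comp φ := by
    apply algHom_ext_of_X (maximalIdeal A)
    · intro i
      rw [AlgHom.comp_apply, hφX]
      exact hm i
    · intro i
      rw [AlgHom.comp_apply, AlgHom.comp_apply, hφX]
      exact h i
  ext r
  obtain ⟨q, rfl⟩ := hφ r
  exact congrArg (fun g : MvPowerSeries (Fin 6) O →ₐ[O] A => g q) h1

end Present

end Fermat.Agent.Ribet.H678
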