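import Fermat.Agent.Ribet.H678.RChiModel

/-!
# Coordinates of `R_χ` and the universal property in coordinates (helper678)
-/

set_option autoImplicit false
set_option linter.unusedSectionVars false
set_option linter.style.haveILetI false
set_option linter.unusedSimpArgs false

namespace Fermat.Agent.Ribet.H678

open MvPowerSeries IsLocalRing Fermat.Agent.S53.H596

section Coord

variable {O : Type*} [CommRing O] [IsLocalRing O] (P : ChiDatum O)

/-- the coordinate `y = Σ₁₂` -/
noncomputable def RChi.y : RChi P :=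
  Ideal.Quotient.mk _ (C (algebraMap (MvPowerSeries (Fin 2) O) (ChiE P) (X 0)))
/-- the coordinate `z = Σ₂₁` -/
noncomputable def RChi.z : RChi P :=
  Ideal.Quotient.mk _ (C (algebraMap (MvPowerSeries (Fin 2) O) (ChiE P) (X 1)))
/-- the coordinate `v = Σ₁₁ - Σ₂₂` -/
noncomputable def RChi.v : RChi P :=
  Ideal.Quotient.mk _ (C (QuadraticAlgebra.omega : ChiE P))
/-- the coordinate `b = Φ₁₂` -/
noncomputable def RChi.b : RChi P := Ideal.Quotient.mk _ (X 0)
/-- the coordinate `c = Φ₂₁` -/
noncomputable def RChi.c : RChi P := Ideal.Quotient.mk _ (X 1)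
/-- the coordinate `u = Φ₁₁ - Φ₂₂` -/
noncomputable def RChi.u : RChi P := Ideal.Quotient.mk _ (X 2)

theorem chiSeq_zero : chiSeq P 0 = algebraMap (MvPowerSeries (Fin 2) O) (ChiE P) (X 0) := rfl
theorem chiSeq_one : chiSeq P 1 = algebraMap (MvPowerSeries (Fin 2) O) (ChiE P) (X 1) := rfl
theorem chiSeq_two : chiSeq P 2 = (QuadraticAlgebra.omega : ChiE P) := rfl

theorem RChi.rel_yc : RChi.y P * RChi.c P = RChi.z P * RChi.b P := by
  rw [← sub_eq_zero]
  change Ideal.Quotient.mk (chiIdeal P) (C (chiSeq P 0) * X 1 - C (chiSeq P 1) * X 0) = 0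
  rw [Ideal.Quotient.eq_zero_iff_mem]
  exact Ideal.subset_span ⟨(0, 1), rfl⟩

theorem RChi.rel_yu : RChi.y P * RChi.u P = RChi.v P * RChi.b P := by
  rw [← sub_eq_zero]
  change Ideal.Quotient.mk (chiIdeal P) (C (chiSeq P 0) * X 2 - C (chiSeq P 2) * X 0) = 0
  rw [Ideal.Quotient.eq_zero_iff_mem]
  exact Ideal.subset_span ⟨(0, 2), rfl⟩

theorem RChi.rel_zu : RChi.z P * RChi.u P = RChi.v P * RChi.c P := by
  rw [← sub_eq_zero]
  change Ideal.Quotient.mk (chiIdeal P) (C (chiSeq P 1) * X 2 - C (chiSeq P 2) * X 1) = 0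
  rw [Ideal.Quotient.eq_zero_iff_mem]
  exact Ideal.subset_span ⟨(1, 2), rfl⟩

theorem omega_sq_chiE :
    (QuadraticAlgebra.omega : ChiE P) * QuadraticAlgebra.omega =
      algebraMap (MvPowerSeries (Fin 2) O) (ChiE P) (psG P.c) := by
  ext <;> simp

theorem rChi_algebraMap (r : O) : algebraMap O (RChi P) r =
    Ideal.Quotient.mk (chiIdeal P)
      (C (algebraMap (MvPowerSeries (Fin 2) O) (ChiE P) (C r))) := by
  rw [← Ideal.Quotient.mk_algebraMap, MvPowerSeries.algebraMap_apply,
    IsScalarTower.algebraMap_apply O (MvPowerSeries (Fin 2) O) (ChiE P), ← c_eq_algebraMap]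

theorem RChi.rel_v : RChi.v P * RChi.v P =
    algebraMap O (RChi P) P.c - 4 * RChi.y P * RChi.z P := by
  rw [rChi_algebraMap]
  change Ideal.Quotient.mk (chiIdeal P) (C (QuadraticAlgebra.omega : ChiE P) *
      C (QuadraticAlgebra.omega : ChiE P)) = _
  have hg : algebraMap (MvPowerSeries (Fin 2) O) (ChiE P) (psG P.c) =
      algebraMap (MvPowerSeries (Fin 2) O) (ChiE P) (C P.c - 4 * X 0 * X 1) := rfl
  rw [← map_mul, omega_sq_chiE, hg]
  simp only [map_sub, map_mul, RChi.y, RChi.z, map_ofNat]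

end Coord

section Lift

variable {O : Type*} [CommRing O] [IsLocalRing O] (P : ChiDatum O)
variable (A : Type*) [CommRing A] [IsLocalRing A] [Algebra O A]

/-- A point of the type-`χ` problem in coordinates: `(y, z, v)` with `v² = c - 4yz` and
`(b, c, u)` parallel to `(y, z, v)`, all in the maximal ideal. -/
structure ChiPoint where
  y : A
  z : A
  v : A
  b : A
  c : A
  u : A
  hy : y ∈ maximalIdeal A
  hz : z ∈ maximalIdeal A
  hb : b ∈ maximalIdeal A
  hc : c ∈ maximalIdeal A
  hu : u ∈ maximalIdeal A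
  rel_v : v * v = algebraMap O A P.c - 4 * y * z
  rel_yc : y * c = z * b
  rel_yu : y * u = v * b
  rel_zu : z * u = v * c

variable {P A}
variable [IsAdicComplete (maximalIdeal A) A]

namespace ChiPoint

variable (pt : ChiPoint P A)

/-- the map `O⟦y,z⟧ → A` -/
noncomputable def liftB : MvPowerSeries (Fin 2) O →ₐ[O] A :=
  evalCNL (maximalIdeal A) ![pt.y, pt.z] (by
    intro i; fin_cases i
    · exact pt.hy
    · exact pt.hz)

theorem liftB_X0 : pt.liftB (X 0) = pt.y := by
  rw [liftB, evalCNL_X]; rfl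

theorem liftB_X1 : pt.liftB (X 1) = pt.z := by
  rw [liftB, evalCNL_X]; rfl

theorem liftB_C (r : O) : pt.liftB (C r) = algebraMap O A r := by
  rw [c_eq_algebraMap]; exact pt.liftB.commutes r

theorem liftB_psG : pt.liftB (psG P.c) = algebraMap O A P.c - 4 * pt.y * pt.z := by
  have : psG P.c = C P.c - 4 * X 0 * X 1 := rfl
  rw [this, map_sub, map_mul, map_mul, liftB_C, liftB_X0, liftB_X1, map_ofNat]

/-- the map `E → A` -/
noncomputable def liftE : ChiE P →+* A :=
  quadLift (pt.liftB : MvPowerSeries (Fin 2) O →+* A) pt.v (by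
    rw [pt.rel_v]; exact (liftB_psG pt).symm)

theorem liftE_algebraMap (f : MvPowerSeries (Fin 2) O) :
    pt.liftE (algebraMap _ (ChiE P) f) = pt.liftB f :=
  quadLift_algebraMap _ _ _ f

theorem liftE_omega : pt.liftE (QuadraticAlgebra.omega : ChiE P) = pt.v :=
  quadLift_omega _ _ _

theorem liftE_chiSeq0 : pt.liftE (chiSeq P 0) = pt.y := by
  rw [chiSeq_zero, liftE_algebraMap, liftB_X0]

theorem liftE_chiSeq1 : pt.liftE (chiSeq P 1) = pt.z := by
  rw [chiSeq_one, liftE_algebraMap, liftB_X1]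

theorem liftE_chiSeq2 : pt.liftE (chiSeq P 2) = pt.v := by
  rw [chiSeq_two, liftE_omega]

/-- the map `E⟦b,c,u⟧ → A` -/
noncomputable def liftQ : ChiQ P →+* A :=
  letI : Algebra (ChiE P) A := (pt.liftE).toAlgebra
  (evalCNL (R := ChiE P) (maximalIdeal A) ![pt.b, pt.c, pt.u] (by
    intro i; fin_cases i
    · exact pt.hb
    · exact pt.hc
    · exact pt.hu) : ChiQ P →ₐ[ChiE P] A).toRingHom

theorem liftQ_C (e : ChiE P) : pt.liftQ (C e) = pt.liftE e := by
  letI : Algebra (ChiE P) A := (pt.liftE).toAlgebra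
  rw [c_eq_algebraMap]
  exact AlgHom.commutes _ e

theorem liftQ_X (i : Fin 3) : pt.liftQ (X i) = ![pt.b, pt.c, pt.u] i := by
  letI : Algebra (ChiE P) A := (pt.liftE).toAlgebra
  exact evalCNL_X (R := ChiE P) (maximalIdeal A) _ _ i

theorem liftQ_koszul (a : ChiQ P) (ha : a ∈ chiIdeal P) : pt.liftQ a = 0 := by
  have hle : chiIdeal P ≤ RingHom.ker pt.liftQ := by
    rw [chiIdeal, koszul, Ideal.span_le]
    rintro _ ⟨⟨i, j⟩, rfl⟩
    rw [SetLike.mem_coe, RingHom.mem_ker, map_sub, map_mul, map_mul, liftQ_C, liftQ_C, liftQ_X,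
      liftQ_X]
    have h1 := pt.rel_yc
    have h2 := pt.rel_yu
    have h3 := pt.rel_zu
    fin_cases i <;> fin_cases j <;>
      simp only [Fin.zero_eta, Fin.mk_one, Fin.reduceFinMk, liftE_chiSeq0, liftE_chiSeq1,
        liftE_chiSeq2, Matrix.cons_val_zero, Matrix.cons_val_one, Matrix.cons_val_two,
        Matrix.head_cons, Matrix.tail_cons, Matrix.cons_val] <;>
      first
        | ring1
        | linear_combination h1
        | linear_combination -h1
        | linear_combination h2
        | linear_combination -h2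
        | linear_combination h3
        | linear_combination -h3
  exact hle ha

/-- **The lift `R_χ → A` of a point.** -/
noncomputable def lift : RChi P →+* A :=
  Ideal.Quotient.lift (chiIdeal P) pt.liftQ (liftQ_koszul pt)

theorem lift_mk (a : ChiQ P) : pt.lift (Ideal.Quotient.mk _ a) = pt.liftQ a :=
  Ideal.Quotient.lift_mk _ _ _

theorem lift_y : pt.lift (RChi.y P) = pt.y := by
  rw [RChi.y, lift_mk, liftQ_C, liftE_algebraMap, liftB_X0]

theorem lift_z : pt.lift (RChi.z P) = pt.z := by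
  rw [RChi.z, lift_mk, liftQ_C, liftE_algebraMap, liftB_X1]

theorem lift_v : pt.lift (RChi.v P) = pt.v := by
  rw [RChi.v, lift_mk, liftQ_C, liftE_omega]

theorem lift_b : pt.lift (RChi.b P) = pt.b := by
  rw [RChi.b, lift_mk, liftQ_X]; rfl

theorem lift_c : pt.lift (RChi.c P) = pt.c := by
  rw [RChi.c, lift_mk, liftQ_X]; rfl

theorem lift_u : pt.lift (RChi.u P) = pt.u := by
  rw [RChi.u, lift_mk, liftQ_X]; rfl

theorem lift_algebraMap (r : O) : pt.lift (algebraMap O (RChi P) r) = algebraMap O A r := by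
  rw [rChi_algebraMap, lift_mk, liftQ_C, liftE_algebraMap, liftB_C]

/-- The lift as an `O`-algebra homomorphism. -/
noncomputable def liftAlgHom : RChi P →ₐ[O] A :=
  { pt.lift with commutes' := pt.lift_algebraMap }

end ChiPoint

end Lift

end Fermat.Agent.Ribet.H678
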