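import Fermat.Agent.Ribet.H678.QuadLocal

/-!
# The local lifting ring `R_χ` at `q ≡ 1 mod p`: model and instances (helper678)

`O` complete noetherian local ring in which `2` is invertible, `T : O` with `T ≡ 2`
(`T = ζ + ζ⁻¹`), `c = T² - 4 = (ζ - ζ⁻¹)²`.  The model is

  `RChi = E⟦b, c', u⟧ ⧸ ((b, c', u) ∥ (y, z, v))`,   `E = O⟦y, z⟧[v]/(v² = c - 4yz)`,

the ring of pairs of commuting matrices `Σ = T/2 + [[v/2, y], [z, -v/2]]`,
`Φ = s/2 + [[u/2, b], [c', -u/2]]` with `det Σ = 1`, `det Φ = ε²`.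
-/

set_option autoImplicit false
set_option linter.unusedSectionVars false
set_option linter.style.haveILetI false
set_option linter.unusedSimpArgs false

namespace Fermat.Agent.Ribet.H678

open MvPowerSeries IsLocalRing Fermat.Agent.S53.H596

/-- Parameters of the type-`χ` lifting problem. -/
structure ChiDatum (O : Type*) [CommRing O] [IsLocalRing O] where
  /-- `1/2` -/
  half : O
  two_half : 2 * half = 1
  /-- the scalar `ε` with `Φ ≡ ε` -/
  eps : O
  /-- `ε⁻¹` -/
  epsInv : O
  eps_inv : eps * epsInv = 1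
  /-- the trace `T = ζ + ζ⁻¹` of `Σ` -/
  T : O
  hT : T - 2 ∈ maximalIdeal O

section Model

variable {O : Type*} [CommRing O] [IsLocalRing O] (P : ChiDatum O)

/-- `c = T² - 4 = (ζ - ζ⁻¹)²`. -/
def ChiDatum.c : O := P.T ^ 2 - 4

theorem ChiDatum.c_mem : P.c ∈ maximalIdeal O := by
  have : P.c = (P.T - 2) * (P.T + 2) := by rw [ChiDatum.c]; ring
  rw [this]
  exact Ideal.mul_mem_right _ _ P.hT

/-- `E = O⟦y,z⟧[v]/(v² = c - 4yz)`. -/
abbrev ChiE : Type _ := QuadraticAlgebra (MvPowerSeries (Fin 2) O) (psG P.c) 0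

theorem psG_mem_maximalIdeal :
    psG P.c ∈ maximalIdeal (MvPowerSeries (Fin 2) O) := by
  rw [maximalIdeal_mvPowerSeries_eq, mem_constIdeal_iff, constantCoeff_psG]
  exact P.c_mem

instance chiE_isLocalRing : IsLocalRing (ChiE P) := quad_isLocalRing (psG_mem_maximalIdeal P)

instance chiE_isLocalHom :
    IsLocalHom (algebraMap (MvPowerSeries (Fin 2) O) (ChiE P)) :=
  quad_isLocalHom (psG_mem_maximalIdeal P)

instance chiE_isNoetherianRing [IsNoetherianRing O] : IsNoetherianRing (ChiE P) :=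
  quad_isNoetherianRing _

instance chiB_isAdicComplete [IsNoetherianRing O] [IsAdicComplete (maximalIdeal O) O] :
    IsAdicComplete (maximalIdeal (MvPowerSeries (Fin 2) O)) (MvPowerSeries (Fin 2) O) :=
  isAdicComplete_mvPowerSeries

instance chiE_isAdicComplete [IsNoetherianRing O] [IsAdicComplete (maximalIdeal O) O] :
    IsAdicComplete (maximalIdeal (ChiE P)) (ChiE P) :=
  quad_isAdicComplete (psG_mem_maximalIdeal P)

/-- The power series ring `E⟦b, c', u⟧`. -/
abbrev ChiQ : Type _ := MvPowerSeries (Fin 3) (ChiE P)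

instance chiQ_isAdicComplete [IsNoetherianRing O] [IsAdicComplete (maximalIdeal O) O] :
    IsAdicComplete (maximalIdeal (ChiQ P)) (ChiQ P) :=
  isAdicComplete_mvPowerSeries

/-- The regular sequence `(y, z, v)` of `E`. -/
noncomputable def chiSeq : Fin 3 → ChiE P := quadSeq (psG P.c) (X 0) (X 1)

/-- The Koszul ideal `((b, c', u) ∥ (y, z, v))`. -/
noncomputable def chiIdeal : Ideal (ChiQ P) := koszul (chiSeq P)

theorem chiIdeal_le_maximalIdeal : chiIdeal P ≤ maximalIdeal (ChiQ P) := by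
  rw [chiIdeal, koszul, Ideal.span_le]
  rintro _ ⟨p, rfl⟩
  rw [SetLike.mem_coe]
  exact Ideal.sub_mem _ (Ideal.mul_mem_left _ _ (X_mem_maximalIdeal_mvPowerSeries _))
    (Ideal.mul_mem_left _ _ (X_mem_maximalIdeal_mvPowerSeries _))

theorem chiIdeal_ne_top : chiIdeal P ≠ ⊤ := by
  intro h
  have := chiIdeal_le_maximalIdeal P
  rw [h, top_le_iff] at this
  exact (maximalIdeal.isMaximal (ChiQ P)).ne_top this

/-- **The model of `R_χ`.** -/
abbrev RChi : Type _ := ChiQ P ⧸ chiIdeal P

instance rChi_isLocalRing : IsLocalRing (RChi P) :=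
  isLocalRing_quotient (chiIdeal P) (chiIdeal_ne_top P)

instance rChi_isNoetherianRing [IsNoetherianRing O] : IsNoetherianRing (RChi P) :=
  inferInstance

instance rChi_isAdicComplete [IsNoetherianRing O] [IsAdicComplete (maximalIdeal O) O] :
    IsAdicComplete (maximalIdeal (RChi P)) (RChi P) :=
  isAdicComplete_quotient (chiIdeal P) (chiIdeal_ne_top P)

noncomputable instance rChi_algebra : Algebra O (RChi P) := inferInstance

end Model

end Fermat.Agent.Ribet.H678
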