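import Fermat.Agent.Ribet.H678.RChiDom

/-!
# Towers of `R_χ` over several pivots (helper678)

`ChiTower O lam κ P`: a complete noetherian local `O`-algebra `T` (a domain with a good
embedding) carrying a point of the type-`χ` problem for every pivot `q : κ`, universal for this
property among complete local `O`-algebras.  Towers exist for every finite `κ`
(`exists_chiTower`): induction on `κ`, the step being `T ↦ R_χ` over the base `T`.
-/

set_option autoImplicit false
set_option linter.unusedSectionVars false
set_option linter.style.haveILetI false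
set_option linter.unusedSimpArgs false

universe u v

namespace Fermat.Agent.Ribet.H678

open MvPowerSeries IsLocalRing Fermat.Agent.S53.H596

section Datum

variable {O : Type*} [CommRing O] [IsLocalRing O] {O' : Type*} [CommRing O'] [IsLocalRing O']

/-- push a datum along a ring homomorphism mapping `𝔪` into `𝔪` -/
def ChiDatum.map (P : ChiDatum O) (f : O →+* O')
    (hf : ∀ x ∈ maximalIdeal O, f x ∈ maximalIdeal O') : ChiDatum O' where
  half := f P.half
  two_half := by rw [← map_ofNat f 2, ← map_mul, P.two_half, map_one]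
  eps := f P.eps
  epsInv := f P.epsInv
  eps_inv := by rw [← map_mul, P.eps_inv, map_one]
  T := f P.T
  hT := by
    have := hf _ P.hT
    rwa [map_sub, map_ofNat] at this

theorem ChiDatum.map_c (P : ChiDatum O) (f : O →+* O')
    (hf : ∀ x ∈ maximalIdeal O, f x ∈ maximalIdeal O') : (P.map f hf).c = f P.c := by
  simp [ChiDatum.c, ChiDatum.map, map_ofNat]

end Datum

section Point

variable {O : Type*} [CommRing O] [IsLocalRing O] {P : ChiDatum O}
variable {A : Type*} [CommRing A] [IsLocalRing A] [Algebra O A]

/-- the six coordinates `(y, z, v, b, c, u)` of a point -/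
def ChiPoint.coords (pt : ChiPoint P A) : Fin 6 → A := ![pt.y, pt.z, pt.v, pt.b, pt.c, pt.u]

theorem ChiPoint.v_mem (pt : ChiPoint P A)
    (hmap : ∀ x ∈ maximalIdeal O, algebraMap O A x ∈ maximalIdeal A) :
    pt.v ∈ maximalIdeal A := by
  have h : pt.v * pt.v ∈ maximalIdeal A := by
    rw [pt.rel_v]
    exact Ideal.sub_mem _ (hmap _ P.c_mem) (Ideal.mul_mem_left _ _ pt.hz)
  exact ((maximalIdeal.isMaximal A).isPrime.mem_or_mem h).elim id id

theorem ChiPoint.coords_mem (pt : ChiPoint P A)
    (hmap : ∀ x ∈ maximalIdeal O, algebraMap O A x ∈ maximalIdeal A) (j : Fin 6) :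
    pt.coords j ∈ maximalIdeal A := by
  fin_cases j
  · exact pt.hy
  · exact pt.hz
  · exact pt.v_mem hmap
  · exact pt.hb
  · exact pt.hc
  · exact pt.hu

/-- change of the base ring / of the datum: only `c` matters -/
def ChiPoint.transfer {O₂ : Type*} [CommRing O₂] [IsLocalRing O₂] [Algebra O₂ A]
    (P₂ : ChiDatum O₂) (pt : ChiPoint P A) (h : algebraMap O A P.c = algebraMap O₂ A P₂.c) :
    ChiPoint P₂ A where
  y := pt.y
  z := pt.z
  v := pt.v
  b := pt.b
  c := pt.c
  u := pt.u
  hy := pt.hy
  hz := pt.hz
  hb := pt.hb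
  hc := pt.hc
  hu := pt.hu
  rel_v := by rw [← h]; exact pt.rel_v
  rel_yc := pt.rel_yc
  rel_yu := pt.rel_yu
  rel_zu := pt.rel_zu

@[simp] theorem ChiPoint.transfer_coords {O₂ : Type*} [CommRing O₂] [IsLocalRing O₂]
    [Algebra O₂ A] (P₂ : ChiDatum O₂) (pt : ChiPoint P A)
    (h : algebraMap O A P.c = algebraMap O₂ A P₂.c) :
    (pt.transfer P₂ h).coords = pt.coords := rfl

/-- image of a point under a ring homomorphism mapping `𝔪` into `𝔪` -/
def ChiPoint.mapHom {A' : Type*} [CommRing A'] [IsLocalRing A'] [Algebra O A']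
    (pt : ChiPoint P A) (f : A →ₐ[O] A') (hf : ∀ x ∈ maximalIdeal A, f x ∈ maximalIdeal A') :
    ChiPoint P A' where
  y := f pt.y
  z := f pt.z
  v := f pt.v
  b := f pt.b
  c := f pt.c
  u := f pt.u
  hy := hf _ pt.hy
  hz := hf _ pt.hz
  hb := hf _ pt.hb
  hc := hf _ pt.hc
  hu := hf _ pt.hu
  rel_v := by
    rw [← map_mul, pt.rel_v, map_sub, map_mul, map_mul, AlgHom.commutes, map_ofNat]
  rel_yc := by rw [← map_mul, pt.rel_yc, map_mul]
  rel_yu := by rw [← map_mul, pt.rel_yu, map_mul]
  rel_zu := by rw [← map_mul, pt.rel_zu, map_mul]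

theorem ChiPoint.mapHom_coords {A' : Type*} [CommRing A'] [IsLocalRing A'] [Algebra O A']
    (pt : ChiPoint P A) (f : A →ₐ[O] A') (hf : ∀ x ∈ maximalIdeal A, f x ∈ maximalIdeal A')
    (j : Fin 6) : (pt.mapHom f hf).coords j = f (pt.coords j) := by
  fin_cases j <;> rfl

theorem ChiPoint.lift_coords [IsAdicComplete (maximalIdeal A) A] (pt : ChiPoint P A) (j : Fin 6) :
    pt.liftAlgHom (RChi.coord P j) = pt.coords j := by
  fin_cases j
  · exact pt.lift_y
  · exact pt.lift_z
  · exact pt.lift_v
  · exact pt.lift_b
  · exact pt.lift_c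
  · exact pt.lift_u

variable (P) in
/-- the universal point of `R_χ` -/
noncomputable def RChi.point : ChiPoint P (RChi P) where
  y := RChi.y P
  z := RChi.z P
  v := RChi.v P
  b := RChi.b P
  c := RChi.c P
  u := RChi.u P
  hy := RChi.y_mem P
  hz := RChi.z_mem P
  hb := RChi.b_mem P
  hc := RChi.c_mem P
  hu := RChi.u_mem P
  rel_v := RChi.rel_v P
  rel_yc := RChi.rel_yc P
  rel_yu := RChi.rel_yu P
  rel_zu := RChi.rel_zu P

theorem RChi.point_coords : (RChi.point P).coords = RChi.coord P := rfl

variable (P) in
theorem rChi_algebraMap_injective [IsNoetherianRing O] :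
    Function.Injective (algebraMap O (RChi P)) := by
  intro a b h
  have h1 := congrArg (RChi.toPS P) h
  rw [rChi_algebraMap, rChi_algebraMap, RChi.toPS_mk, RChi.toPS_mk, ltPsi_C, ltPsi_C] at h1
  have h2 := congrArg (PowerSeries.constantCoeff) h1
  rw [PowerSeries.constantCoeff_C, PowerSeries.constantCoeff_C] at h2
  have h3 := congrArg QuadraticAlgebra.re h2
  have h4 := congrArg MvPowerSeries.constantCoeff h3
  simpa using h4

end Point

section Tower

/-- A tower of `R_χ`'s over the pivots `κ`: a complete noetherian local `O`-algebra `T` with a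
good embedding, a point for each pivot, universal among complete local `O`-algebras. -/
structure ChiTower (O : Type u) [CommRing O] [IsLocalRing O] (lam : O) (κ : Type v)
    (P : κ → ChiDatum O) where
  /-- the ring -/
  T : Type u
  [commRing : CommRing T]
  [isLocalRing : IsLocalRing T]
  [algebra : Algebra O T]
  [noeth : IsNoetherianRing T]
  [complete : IsAdicComplete (maximalIdeal T) T]
  map_mem : ∀ x ∈ maximalIdeal O, algebraMap O T x ∈ maximalIdeal T
  inj : Function.Injective (algebraMap O T)
  good : GoodEmb T (algebraMap O T lam)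
  /-- the universal points -/
  pt : ∀ q, ChiPoint (P q) T
  /-- the classifying map -/
  lift : ∀ (A : Type u) [CommRing A] [IsLocalRing A] [Algebra O A]
    [IsAdicComplete (maximalIdeal A) A], (∀ q, ChiPoint (P q) A) → (T →ₐ[O] A)
  lift_pt : ∀ (A : Type u) [CommRing A] [IsLocalRing A] [Algebra O A]
    [IsAdicComplete (maximalIdeal A) A] (pts : ∀ q, ChiPoint (P q) A) (q : κ) (j : Fin 6),
    lift A pts ((pt q).coords j) = (pts q).coords j

attribute [instance] ChiTower.commRing ChiTower.isLocalRing ChiTower.algebra ChiTower.noeth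
  ChiTower.complete

variable {O : Type u} [CommRing O] [IsLocalRing O] [IsNoetherianRing O]
  [IsAdicComplete (maximalIdeal O) O] {lam : O}

/-- the trivial tower -/
noncomputable def ChiTower.empty (hgood : GoodEmb O lam) (κ : Type v) [IsEmpty κ]
    (P : κ → ChiDatum O) : ChiTower O lam κ P where
  T := O
  map_mem := fun _ hx => hx
  inj := Function.injective_id
  good := hgood
  pt := fun q => isEmptyElim q
  lift := fun A _ _ _ _ _ => Algebra.ofId O A
  lift_pt := fun _ _ _ _ _ _ q => isEmptyElim q

/-- transport along an equivalence of the index types -/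
noncomputable def ChiTower.ofEquiv {κ κ' : Type v} (e : κ ≃ κ') (P : κ' → ChiDatum O)
    (W : ChiTower O lam κ (fun q => P (e q))) : ChiTower O lam κ' P where
  T := W.T
  map_mem := W.map_mem
  inj := W.inj
  good := W.good
  pt := fun q' => (W.pt (e.symm q')).transfer (P q') (by rw [e.apply_symm_apply])
  lift := fun A _ _ _ _ pts => W.lift A (fun q => pts (e q))
  lift_pt := fun A _ _ _ _ pts q' j => by
    rw [ChiPoint.transfer_coords, W.lift_pt A (fun q => pts (e q)) (e.symm q') j]
    have : ∀ q₁ q₂ : κ', q₁ = q₂ → (pts q₁).coords j = (pts q₂).coords j := by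
      rintro q₁ q₂ rfl
      rfl
    exact this _ _ (e.apply_symm_apply q')

section StepDef

variable {κ : Type v} {P : Option κ → ChiDatum O}
variable (W : ChiTower O lam κ (fun q => P (some q)))

/-- the new datum over the old tower -/
noncomputable def ChiTower.stepDatum : ChiDatum W.T :=
  (P none).map (algebraMap O W.T) W.map_mem

/-- the ring of the next stage -/
abbrev ChiTower.StepRing : Type u := RChi W.stepDatum

/-- the `O`-algebra structure of the next stage -/
@[reducible] noncomputable def ChiTower.stepAlgebra : Algebra O W.StepRing :=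
  ((algebraMap W.T W.StepRing).comp (algebraMap O W.T)).toAlgebra

theorem ChiTower.stepDatum_c : W.stepDatum.c = algebraMap O W.T (P none).c :=
  ChiDatum.map_c _ _ _

/-- the structure map `T → T'` as an `O`-algebra map -/
noncomputable def ChiTower.stepMap :
    letI := W.stepAlgebra
    W.T →ₐ[O] W.StepRing :=
  letI := W.stepAlgebra
  { algebraMap W.T W.StepRing with commutes' := fun _ => rfl }

/-- the classifying map of the next stage -/
noncomputable def ChiTower.stepLift (A : Type u) [CommRing A] [IsLocalRing A] [Algebra O A]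
    [IsAdicComplete (maximalIdeal A) A] (pts : ∀ q, ChiPoint (P q) A) :
    letI := W.stepAlgebra
    W.StepRing →ₐ[O] A :=
  letI := W.stepAlgebra
  letI algTA : Algebra W.T A := (W.lift A (fun q => pts (some q))).toRingHom.toAlgebra
  let ptT : ChiPoint W.stepDatum A := (pts none).transfer W.stepDatum (by
    rw [W.stepDatum_c]
    exact ((W.lift A (fun q => pts (some q))).commutes _).symm)
  { (ptT.liftAlgHom : W.StepRing →ₐ[W.T] A).toRingHom with
    commutes' := fun r => by
      have h1 : algebraMap O W.StepRing r = algebraMap W.T W.StepRing (algebraMap O W.T r) := rfl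
      show (ptT.liftAlgHom : W.StepRing →ₐ[W.T] A) (algebraMap O W.StepRing r) = _
      rw [h1, AlgHom.commutes]
      exact (W.lift A (fun q => pts (some q))).commutes r }

theorem ChiTower.stepLift_coord (A : Type u) [CommRing A] [IsLocalRing A] [Algebra O A]
    [IsAdicComplete (maximalIdeal A) A] (pts : ∀ q, ChiPoint (P q) A) (j : Fin 6) :
    W.stepLift A pts (RChi.coord W.stepDatum j) = (pts none).coords j := by
  letI := W.stepAlgebra
  letI algTA : Algebra W.T A := (W.lift A (fun q => pts (some q))).toRingHom.toAlgebra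
  exact ChiPoint.lift_coords ((pts none).transfer W.stepDatum (by
    rw [W.stepDatum_c]
    exact ((W.lift A (fun q => pts (some q))).commutes _).symm)) j

theorem ChiTower.stepLift_algebraMap (A : Type u) [CommRing A] [IsLocalRing A] [Algebra O A]
    [IsAdicComplete (maximalIdeal A) A] (pts : ∀ q, ChiPoint (P q) A) (t : W.T) :
    W.stepLift A pts (algebraMap W.T W.StepRing t) = W.lift A (fun q => pts (some q)) t := by
  letI := W.stepAlgebra
  letI algTA : Algebra W.T A := (W.lift A (fun q => pts (some q))).toRingHom.toAlgebra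
  exact AlgHom.commutes (((pts none).transfer W.stepDatum (by
    rw [W.stepDatum_c]
    exact ((W.lift A (fun q => pts (some q))).commutes _).symm)).liftAlgHom :
      W.StepRing →ₐ[W.T] A) t

/-- the points of the next stage -/
noncomputable def ChiTower.stepPt :
    letI := W.stepAlgebra
    ∀ q : Option κ, ChiPoint (P q) W.StepRing :=
  letI := W.stepAlgebra
  fun q => match q with
    | none => (RChi.point W.stepDatum).transfer (P none)
        (congrArg (algebraMap W.T (RChi W.stepDatum)) W.stepDatum_c)
    | some q => (W.pt q).mapHom W.stepMap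
        (fun x hx => rChi_algebraMap_mem W.stepDatum hx)

theorem ChiTower.stepPt_none (j : Fin 6) :
    letI := W.stepAlgebra
    (W.stepPt none).coords j = RChi.coord W.stepDatum j := rfl

theorem ChiTower.stepPt_some (q : κ) (j : Fin 6) :
    letI := W.stepAlgebra
    (W.stepPt (some q)).coords j = algebraMap W.T W.StepRing ((W.pt q).coords j) := by
  letI := W.stepAlgebra
  exact ChiPoint.mapHom_coords (W.pt q) W.stepMap
    (fun x hx => rChi_algebraMap_mem W.stepDatum hx) j

/-- **the step of the tower** -/
noncomputable def ChiTower.step (hlc : lam ∣ (P none).c) (hc : (P none).c ≠ 0) :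
    ChiTower O lam (Option κ) P :=
  letI := W.stepAlgebra
  { T := W.StepRing
    map_mem := fun x hx => rChi_algebraMap_mem W.stepDatum (W.map_mem x hx)
    inj := (rChi_algebraMap_injective W.stepDatum).comp W.inj
    good := GoodEmb.rChi W.stepDatum W.good
      (by rw [W.stepDatum_c]; exact map_dvd _ hlc)
      (by
        rw [W.stepDatum_c]
        intro h
        exact hc (W.inj (by rw [h, map_zero])))
    pt := W.stepPt
    lift := fun A _ _ _ _ pts => W.stepLift A pts
    lift_pt := fun A _ _ _ _ pts q j => by
      cases q with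
      | none =>
        rw [W.stepPt_none]
        exact W.stepLift_coord A pts j
      | some q =>
        rw [W.stepPt_some, W.stepLift_algebraMap]
        exact W.lift_pt A (fun q => pts (some q)) q j }

end StepDef

/-- **Towers exist** for every finite set of pivots. -/
theorem exists_chiTower (hgood : GoodEmb O lam) (κ : Type v) [Finite κ] :
    ∀ P : κ → ChiDatum O, (∀ q, lam ∣ (P q).c) → (∀ q, (P q).c ≠ 0) →
      Nonempty (ChiTower O lam κ P) := by
  refine Finite.induction_empty_option
    (P := fun κ : Type v => ∀ P : κ → ChiDatum O, (∀ q, lam ∣ (P q).c) → (∀ q, (P q).c ≠ 0) →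
      Nonempty (ChiTower O lam κ P)) ?_ ?_ ?_ κ
  · intro α β e h P h1 h2
    obtain ⟨W⟩ := h (fun q => P (e q)) (fun q => h1 _) (fun q => h2 _)
    exact ⟨W.ofEquiv e P⟩
  · intro P _ _
    exact ⟨ChiTower.empty hgood PEmpty P⟩
  · intro α _ h P h1 h2
    obtain ⟨W⟩ := h (fun q => P (some q)) (fun q => h1 _) (fun q => h2 _)
    exact ⟨W.step (h1 none) (h2 none)⟩

end Tower

end Fermat.Agent.Ribet.H678
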